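import Fermat.Agent.Gal.Unramified
import Fermat.Agent.Gal.Residue
import Mathlib.RingTheory.Henselian
import Mathlib.RingTheory.DiscreteValuationRing.Basic
import Mathlib.FieldTheory.Galois.Infinite

/-!
# The fixed field of inertia

The fixed field of inertia at a place over `q`: its valuation ring is a Henselian discrete
valuation ring with algebraically closed residue field and uniformiser `q`.

Main results: `henselianLocalRing`, `isAlgClosed_residueField`.
-/

set_option autoImplicit false

noncomputable section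

namespace Fermat.Agent.Carayol.InertiaField

open NumberField IsDedekindDomain WithZero Fermat.Agent.Gal
open scoped Pointwise

local notation "Qbar" => AlgebraicClosure ℚ
local notation "AbsGal" => AlgebraicClosure ℚ ≃ₐ[ℚ] AlgebraicClosure ℚ

/-- An element of a valuation subring outside its nonunits is a unit. -/
theorem inv_mem_of_notMem_nonunits {A : ValuationSubring Qbar} {x : Qbar}
    (hx : x ∉ A.nonunits) : x⁻¹ ∈ A := by
  by_contra h
  exact hx (A.mem_nonunits_iff_or.mpr (Or.inr h))

variable {q : ℕ} (hq : q.Prime) {A : ValuationSubring (AlgebraicClosure ℚ)}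
  (hA : A.LiesOverPrime q)

include hq hA

/-- The value group of the fixed field of inertia is generated by `q`. -/
theorem exists_zpow_mul_unit {x : Qbar} (hfix : ∀ σ ∈ A.inertiaSubgroupIn ℚ, σ x = x)
    (hx0 : x ≠ 0) : ∃ m : ℤ, x / (q : Qbar) ^ m ∈ A ∧ (q : Qbar) ^ m / x ∈ A := by
  classical
  let L : IntermediateField ℚ Qbar :=
    IntermediateField.normalClosure ℚ ↥(IntermediateField.adjoin ℚ ({x} : Set Qbar)) Qbar
  have : FiniteDimensional ℚ (IntermediateField.adjoin ℚ ({x} : Set Qbar)) :=
    IntermediateField.adjoin.finiteDimensional (Algebra.IsIntegral.isIntegral x)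
  have : FiniteDimensional ℚ L := normalClosure.is_finiteDimensional ℚ _ _
  have : Normal ℚ L := normalClosure.normal ℚ _ _
  have : IsGalois ℚ L := ⟨⟩
  have : NumberField L := ⟨⟩
  have hxL : x ∈ L :=
    IntermediateField.le_normalClosure _ (IntermediateField.mem_adjoin_simple_self ℚ x)
  let P := primeBelow L A
  let I := P.inertia (L ≃ₐ[ℚ] L)
  let F : IntermediateField ℚ L := IntermediateField.fixedField I
  have : NumberField F := ⟨⟩
  have hxF : (⟨x, hxL⟩ : L) ∈ F := by
    rintro ⟨τ, hτ⟩
    obtain ⟨σ, hσ, rfl⟩ := exists_inertia_restrictNormal_eq L A τ hτ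
    exact Subtype.ext ((AlgEquiv.restrictNormal_commutes σ L _).trans (hfix σ hσ))
  have hP0 : P ≠ ⊥ := by
    intro h0
    have hP : (q : 𝓞 L) ∈ P := natCast_mem_primeBelow L hA
    rw [h0, Ideal.mem_bot] at hP
    exact hq.ne_zero (by exact_mod_cast hP)
  have : P.IsMaximal := (inferInstance : P.IsPrime).isMaximal hP0
  let PF := P.under (𝓞 F)
  have : PF.IsPrime := Ideal.IsPrime.under _ P
  have hPF0 : PF ≠ ⊥ := fun h => hP0 (Ideal.eq_bot_of_comap_eq_bot h)
  have : PF.IsMaximal := (inferInstance : PF.IsPrime).isMaximal hPF0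
  have : IsGaloisGroup (L ≃ₐ[ℚ] L) ℤ (𝓞 L) :=
    IsGaloisGroup.of_isFractionRing (L ≃ₐ[ℚ] L) ℤ (𝓞 L) ℚ L
  have : IsGalois F L := IsGalois.tower_top_intermediateField F
  have : IsGaloisGroup (L ≃ₐ[F] L) (𝓞 F) (𝓞 L) :=
    IsGaloisGroup.of_isFractionRing (L ≃ₐ[F] L) (𝓞 F) (𝓞 L) F L
  have hperf : ∀ {R : Type} [CommRing R] [IsDomain R] [IsDedekindDomain R] (p : Ideal R)
      [p.IsMaximal] [Finite (R ⧸ p)], PerfectField p.ResidueField := by
    intro R _ _ _ p _ _
    let := Ideal.Quotient.field p
    exact Algebra.IsAlgebraic.perfectField (K := R ⧸ p)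
  have : (P.under ℤ).IsMaximal :=
    (Ideal.IsPrime.under ℤ P).isMaximal fun h0 => hP0 (Ideal.eq_bot_of_comap_eq_bot h0)
  have : Finite (ℤ ⧸ P.under ℤ) := Ideal.finiteQuotientOfFreeOfNeBot _
    fun h0 => hP0 (Ideal.eq_bot_of_comap_eq_bot h0)
  have := hperf (P.under ℤ)
  have : Finite (𝓞 F ⧸ PF) := Ideal.finiteQuotientOfFreeOfNeBot _ hPF0
  have := hperf PF
  -- the two ramification indices agree
  have e1 : P.ramificationIdx ℤ = Nat.card I := by
    rw [← Ideal.ramificationIdxIn_eq_ramificationIdx (P.under ℤ) P (L ≃ₐ[ℚ] L),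
      ← Ideal.card_inertia_eq_ramificationIdxIn (G := L ≃ₐ[ℚ] L) (P.under ℤ) P]
  have e2 : P.ramificationIdx (𝓞 F) = Nat.card I := by
    rw [← Ideal.ramificationIdxIn_eq_ramificationIdx PF P (L ≃ₐ[F] L),
      ← Ideal.card_inertia_eq_ramificationIdxIn (G := L ≃ₐ[F] L) PF P]
    have htop : P.inertia (L ≃ₐ[F] L) = ⊤ := by
      refine eq_top_iff.mpr fun τ _ => ?_
      have hτ : τ.restrictScalars ℚ ∈ I := by
        have h := IntermediateField.fixingSubgroup_fixedField I
        rw [← h]
        exact fun z => τ.commutes z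
      exact fun a => hτ a
    rw [htop, Subgroup.card_top, IsGalois.card_aut_eq_finrank]
    exact IntermediateField.finrank_fixedField_eq_card I
  have h1 : PF.ramificationIdx ℤ = 1 := by
    have h := Ideal.ramificationIdx_tower (R := ℤ) PF P
    rw [e1, e2] at h
    exact (mul_eq_right₀ (Nat.card_pos).ne').mp h.symm
  have hspan : Ideal.span {(q : ℤ)} = P.under ℤ := by
    refine (PrincipalIdealRing.isMaximal_of_irreducible
      (Nat.prime_iff_prime_int.1 hq).irreducible).eq_of_le
        (Ideal.IsPrime.under ℤ P).ne_top ?_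
    rw [Ideal.span_le, Set.singleton_subset_iff]
    show algebraMap ℤ (𝓞 L) (q : ℤ) ∈ P
    simpa using natCast_mem_primeBelow L hA
  have : PF.LiesOver (Ideal.span {(q : ℤ)}) := ⟨by rw [hspan, Ideal.under_under]⟩
  let v : HeightOneSpectrum (𝓞 F) := ⟨PF, inferInstance, hPF0⟩
  have hne : (Ideal.span {(q : ℤ)}).map (algebraMap ℤ (𝓞 F)) ≠ ⊥ := by
    rw [Ideal.map_span, Set.image_singleton, Ne, Ideal.span_singleton_eq_bot]
    simpa using hq.ne_zero
  have hmul : multiplicity v.asIdeal (Ideal.span {((q : ℕ) : 𝓞 F)}) = 1 := by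
    have h := Ideal.IsDedekindDomain.ramificationIdx_eq_multiplicity (Ideal.span {(q : ℤ)}) PF hne
    rw [h1, Ideal.map_span, Set.image_singleton] at h
    simpa using h.symm
  have hvq : v.valuation F ((q : ℕ) : F) = exp (-1) := by
    rw [← map_natCast (algebraMap (𝓞 F) F), HeightOneSpectrum.valuation_of_algebraMap,
      HeightOneSpectrum.intValuation_eq_exp_neg_multiplicity _ (by exact_mod_cast hq.ne_zero),
      hmul]
    norm_num
  -- valuation one gives a unit of `A`
  let ι : F →+* Qbar := (algebraMap L Qbar).comp (algebraMap F L)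
  have hint : ∀ a : 𝓞 F, ι a ∈ A := fun a =>
    Gal.mem_of_isIntegral A (map_isIntegral_int ι a.2)
  have hunit : ∀ a : 𝓞 F, a ∉ PF → ι a ∉ A.nonunits := fun a ha h => ha (by
    rw [Ideal.mem_comap, mem_primeBelow]
    exact h)
  have key : ∀ y : F, v.valuation F y = 1 → ι y ∈ A ∧ (ι y)⁻¹ ∈ A := by
    intro y hy
    obtain ⟨n, ⟨d, hd⟩, e⟩ := v.exists_primeCompl_mul_eq_of_integer y hy.le
    have hn : n ∉ PF := fun hn => by
      have h2 := congrArg (v.valuation F) e
      rw [map_mul, hy, one_mul] at h2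
      have h3 : v.valuation F (algebraMap (𝓞 F) F d) = 1 :=
        le_antisymm (v.valuation_le_one d)
          (not_lt.1 fun h => hd ((v.valuation_lt_one_iff_mem d).1 h))
      exact ((v.valuation_lt_one_iff_mem n).2 hn).ne (h2.symm.trans h3)
    have e' : ι y * ι d = ι n := by rw [← map_mul]; exact congrArg ι e
    have hd0 : ι d ≠ 0 := fun h =>
      hunit d hd (by rw [h]; exact A.mem_nonunits_iff_or.mpr (Or.inl rfl))
    have hy' : ι y = ι n * (ι d)⁻¹ := by rw [← e', mul_inv_cancel_right₀ hd0]
    exact ⟨by rw [hy']; exact mul_mem (hint n) (inv_mem_of_notMem_nonunits (hunit d hd)),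
      by rw [hy', mul_inv, inv_inv]; exact mul_mem (inv_mem_of_notMem_nonunits (hunit n hn))
           (hint d)⟩
  let z : F := ⟨⟨x, hxL⟩, hxF⟩
  have hz0 : z ≠ 0 := fun h => hx0 (congrArg (fun y : F => ((y : L) : Qbar)) h)
  have hv0 : v.valuation F z ≠ 0 := (Valuation.ne_zero_iff _).mpr hz0
  refine ⟨-log (v.valuation F z), ?_⟩
  set m : ℤ := -log (v.valuation F z)
  have hvy : v.valuation F (z / (q : F) ^ m) = 1 := by
    rw [map_div₀, map_zpow₀, hvq, ← exp_zsmul, smul_eq_mul, show m * -1 = log (v.valuation F z) by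
      simp [m], exp_log hv0, div_self hv0]
  obtain ⟨h2, h3⟩ := key _ hvy
  have hι : ι (z / (q : F) ^ m) = x / (q : Qbar) ^ m := by
    rw [map_div₀, map_zpow₀, map_natCast]
    rfl
  rw [hι] at h2 h3
  exact ⟨h2, by rwa [inv_div] at h3⟩

section Field

omit hq hA

variable (A)

/-- The fixed field of inertia at `A`. -/
abbrev field : IntermediateField ℚ (AlgebraicClosure ℚ) :=
  IntermediateField.fixedField (A.inertiaSubgroupIn ℚ)

/-- The valuation ring of the fixed field of inertia. -/
def ring : ValuationSubring (field A) := A.comap (algebraMap (field A) (AlgebraicClosure ℚ))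

theorem mem_field_iff {x : Qbar} : x ∈ field A ↔ ∀ σ ∈ A.inertiaSubgroupIn ℚ, σ x = x :=
  ⟨fun h σ hσ => h ⟨σ, hσ⟩, fun h => fun ⟨σ, hσ⟩ => h σ hσ⟩

theorem apply_eq {σ : AbsGal} (hσ : σ ∈ A.inertiaSubgroupIn ℚ) (x : field A) :
    σ (x : Qbar) = x := (mem_field_iff A).1 x.2 σ hσ

/-- The inclusion of valuation rings. -/
def incl : ring A →+* A where
  toFun x := ⟨((x : field A) : Qbar), x.2⟩
  map_one' := rfl
  map_mul' _ _ := rfl
  map_zero' := rfl
  map_add' _ _ := rfl

theorem isUnit_incl_iff (x : ring A) : IsUnit (incl A x) ↔ IsUnit x := by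
  refine ⟨fun h => ?_, fun h => h.map _⟩
  obtain ⟨y, hy⟩ := h.exists_right_inv
  have hy' : ((x : field A) : Qbar) * (y : Qbar) = 1 := congrArg Subtype.val hy
  have hmem : ((x : field A))⁻¹ ∈ ring A := by
    change (((x : field A)⁻¹ : field A) : Qbar) ∈ A
    rw [IntermediateField.coe_inv, inv_eq_of_mul_eq_one_right hy']
    exact y.2
  refine IsUnit.of_mul_eq_one ⟨_, hmem⟩ (Subtype.ext ?_)
  exact mul_inv_cancel₀ fun h0 => by simp [h0] at hy'

instance isLocalHom_incl : IsLocalHom (incl A) := ⟨fun x h => (isUnit_incl_iff A x).1 h⟩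

include hq hA in
theorem isDiscreteValuationRing :
    IsDiscreteValuationRing (ring A) ∧
      IsLocalRing.maximalIdeal (ring A) = Ideal.span {(q : ring A)} := by
  have hqm : (q : ring A) ∈ IsLocalRing.maximalIdeal (ring A) := by
    intro h
    have h1 := h.map (incl A)
    rw [map_natCast] at h1
    exact ((A.coe_mem_nonunits_iff).1 (by exact_mod_cast hA) :
      (q : A) ∈ IsLocalRing.maximalIdeal A) h1
  have hq0 : (q : ring A) ≠ 0 := fun h => by
    have h1 := congrArg (fun y => ((incl A y : A) : Qbar)) h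
    simp [hq.ne_zero] at h1
  have key : ∀ {x : ring A}, x ≠ 0 → ∃ (n : ℕ) (u : (ring A)ˣ), x = u * (q : ring A) ^ n := by
    intro x hx
    have hx0 : ((x : field A) : Qbar) ≠ 0 := by simpa using hx
    obtain ⟨m, h1, h2⟩ := exists_zpow_mul_unit hq hA (fun σ hσ => apply_eq A hσ _) hx0
    have hm : 0 ≤ m := by
      by_contra hneg
      obtain ⟨k, hk⟩ : ∃ k : ℕ, m = -((k + 1 : ℕ) : ℤ) := ⟨(-m - 1).toNat, by omega⟩
      rw [hk, zpow_neg, zpow_natCast] at h2
      have h3 : ((q : Qbar) ^ (k + 1))⁻¹ ∈ A := by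
        have hmul : ((q : Qbar) ^ (k + 1))⁻¹ / (x : field A) * (x : field A) ∈ A :=
          A.mul_mem _ _ h2 x.2
        rwa [div_mul_cancel₀ _ hx0] at hmul
      have h4 : (q : Qbar) ^ (k + 1) ∈ A.nonunits := pow_mem_nonunits A (Nat.succ_ne_zero k) hA
      exact (A.mem_nonunits_iff_or.1 h4).elim (pow_ne_zero _ (by exact_mod_cast hq.ne_zero))
        fun h => h h3
    obtain ⟨n, rfl⟩ := Int.eq_ofNat_of_zero_le hm
    rw [zpow_natCast] at h1 h2
    set u : field A := (x : field A) / (q : field A) ^ n with hu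
    have hu' : (u : Qbar) = (x : field A) / (q : Qbar) ^ n := by simp [hu]
    have hmem : u ∈ ring A := by
      change (u : Qbar) ∈ A
      rwa [hu']
    have hunit : IsUnit (⟨u, hmem⟩ : ring A) := by
      rw [← isUnit_incl_iff]
      refine IsUnit.of_mul_eq_one ⟨_, h2⟩ (Subtype.ext ?_)
      show (u : Qbar) * ((q : Qbar) ^ n / (x : field A)) = 1
      rw [hu', div_mul_div_cancel₀ (pow_ne_zero _ (by exact_mod_cast hq.ne_zero)), div_self hx0]
    refine ⟨n, hunit.unit, Subtype.ext (Subtype.ext ?_)⟩
    show ((x : field A) : Qbar) = (u : Qbar) * (((q : ring A) : field A) : Qbar) ^ n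
    rw [hu']
    simp [hq.ne_zero]
  have hirr : Irreducible (q : ring A) := by
    refine ⟨hqm, fun a b hab => ?_⟩
    have ha : a ≠ 0 := fun h => hq0 (by rw [hab, h, zero_mul])
    have hb : b ≠ 0 := fun h => hq0 (by rw [hab, h, mul_zero])
    obtain ⟨i, u, rfl⟩ := key ha
    obtain ⟨j, w, rfl⟩ := key hb
    rcases Nat.eq_zero_or_pos i with rfl | hi
    · exact Or.inl (by simp)
    rcases Nat.eq_zero_or_pos j with rfl | hj
    · exact Or.inr (by simp)
    exfalso
    refine hqm ?_
    obtain ⟨i, rfl⟩ := Nat.exists_eq_succ_of_ne_zero hi.ne'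
    obtain ⟨j, rfl⟩ := Nat.exists_eq_succ_of_ne_zero hj.ne'
    refine IsUnit.of_mul_eq_one ((u : ring A) * w * (q : ring A) ^ (i + j)) ?_
    refine mul_left_cancel₀ hq0 ?_
    calc (q : ring A) * ((q : ring A) * ((u : ring A) * w * (q : ring A) ^ (i + j)))
        = (u : ring A) * (q : ring A) ^ (i + 1) * ((w : ring A) * (q : ring A) ^ (j + 1)) := by ring
      _ = (q : ring A) * 1 := by rw [mul_one]; exact hab.symm
  have hdvr : IsDiscreteValuationRing (ring A) :=
    IsDiscreteValuationRing.ofHasUnitMulPowIrreducibleFactorization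
      ⟨(q : ring A), hirr, fun {x} hx => by
        obtain ⟨n, u, hu⟩ := key hx
        exact ⟨n, u, by rw [hu]; ring⟩⟩
  exact ⟨hdvr, hirr.maximalIdeal_eq⟩

include hq hA in
/-- Its residue field is algebraically closed. -/
theorem isAlgClosed_residueField : IsAlgClosed (IsLocalRing.ResidueField (ring A)) := by
  have hchar := charP_residueField A hq hA
  have := Fact.mk hq
  let _ : Algebra (ZMod q) (IsLocalRing.ResidueField A) := ZMod.algebra _ q
  have := isAlgebraic_residueField A hA
  let r := IsLocalRing.ResidueField.map (incl A)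
  have hsurj : Function.Surjective r := by
    intro c
    rcases eq_or_ne c 0 with rfl | hc
    · exact ⟨0, map_zero _⟩
    let E := IntermediateField.adjoin (ZMod q) ({c} : Set (IsLocalRing.ResidueField A))
    have : FiniteDimensional (ZMod q) E :=
      IntermediateField.adjoin.finiteDimensional (Algebra.IsIntegral.isIntegral c)
    have : Finite E := Module.finite_of_finite (ZMod q)
    let _ := Fintype.ofFinite E
    set m := Fintype.card E - 1
    have hpow : c ^ m = 1 :=
      congrArg Subtype.val (FiniteField.pow_card_sub_one_eq_one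
        (⟨c, IntermediateField.mem_adjoin_simple_self _ c⟩ : E)
        (fun h => hc (congrArg Subtype.val h)))
    have hm : (m : IsLocalRing.ResidueField A) = -1 := by
      rw [Nat.cast_sub Fintype.card_pos, Nat.cast_one]
      have : (Fintype.card E : E) = 0 := Nat.cast_card_eq_zero E
      have := congrArg (algebraMap E (IsLocalRing.ResidueField A)) this
      rw [map_natCast, map_zero] at this
      rw [this, zero_sub]
    have hm0 : m ≠ 0 := fun h => by simp [h] at hm
    obtain ⟨y, -, hyc, hyfix⟩ := exists_root_fixed_of_simple_root (K := ℚ) A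
      (p := Polynomial.X ^ m - Polynomial.C 1) (Polynomial.monic_X_pow_sub_C 1 hm0)
      (fun i σ _ => by
        rw [Polynomial.coeff_sub, Polynomial.coeff_X_pow, Polynomial.coeff_C]
        split_ifs <;> simp) (c := c) (by simp [Polynomial.IsRoot, hpow]) (by
        simp [Polynomial.IsRoot, Polynomial.derivative_X_pow, hm, pow_ne_zero _ hc])
    refine ⟨IsLocalRing.residue _ ⟨⟨y, (mem_field_iff A).2 hyfix⟩, y.2⟩, ?_⟩
    exact (IsLocalRing.ResidueField.map_residue _ _).trans hyc
  have := Gal.isAlgClosed_residueField A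
  exact IsAlgClosed.of_ringEquiv (IsLocalRing.ResidueField A) _
    (RingEquiv.ofBijective r ⟨RingHom.injective r, hsurj⟩).symm

/-- The ring of the fixed field of inertia is Henselian. -/
theorem henselianLocalRing : HenselianLocalRing (ring A) where
  is_henselian f hf a₀ h0 hder := by
    let p := f.map (incl A)
    let c := IsLocalRing.residue A (incl A a₀)
    have hc : (p.map (IsLocalRing.residue A)).IsRoot c := by
      rw [Polynomial.IsRoot, Polynomial.eval_map, Polynomial.eval₂_at_apply,
        Polynomial.eval_map, Polynomial.eval₂_at_apply, IsLocalRing.residue_eq_zero_iff]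
      exact fun h => h0 ((isUnit_incl_iff A _).1 h)
    have hc' : ¬ (p.map (IsLocalRing.residue A)).derivative.IsRoot c := by
      rw [Polynomial.IsRoot, Polynomial.derivative_map, Polynomial.eval_map,
        Polynomial.eval₂_at_apply, Polynomial.derivative_map, Polynomial.eval_map,
        Polynomial.eval₂_at_apply]
      exact (IsLocalRing.residue_ne_zero_iff_isUnit _).2 (hder.map _)
    obtain ⟨y, hy, hyc, hyfix⟩ := exists_root_fixed_of_simple_root (K := ℚ) A
      (hf.map (incl A)) (fun i σ hσ => by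
        rw [Polynomial.coeff_map]
        exact apply_eq A hσ _) hc hc'
    let a : ring A := ⟨⟨y, (mem_field_iff A).2 hyfix⟩, y.2⟩
    refine ⟨a, ?_, ?_⟩
    · apply (show Function.Injective (incl A) from fun u w h =>
        Subtype.ext (Subtype.ext (congrArg (fun z : A => (z : Qbar)) h)))
      rw [map_zero, ← Polynomial.eval₂_at_apply, ← Polynomial.eval_map]
      exact hy
    · intro h
      have h' : IsUnit (incl A (a - a₀)) := h.map _
      rw [map_sub] at h'
      refine (IsLocalRing.residue_ne_zero_iff_isUnit _).2 h' ?_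
      rw [map_sub, sub_eq_zero]
      exact hyc

end Field

end Fermat.Agent.Carayol.InertiaField
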