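import Fermat.Agent.Kummer.Galois
import Fermat.Agent.FF.ModularField
import Fermat.Agent.Carayol.Bridge

/-!
# Push-forward along the degeneracy maps

Push-forward of divisor classes to `X₀(q * M')` along the two degeneracy maps.

Main result: `levelPush_smul`.
-/

set_option autoImplicit false

noncomputable section

open AlgebraicCurve ModularCurve
open scoped Pointwise

namespace Fermat.Agent.Carayol

section General

variable {K F F' : Type*} [Field K] [Field F] [Field F'] [Algebra K F] [Algebra K F']
  [FF.IsFunctionField K F] [FF.IsFunctionField K F'] (φ : F →ₐ[K] F')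

/-- Push-forward of divisor classes along an embedding of function fields. -/
def pushClass : Pic0 K F' →+ Pic0 K F :=
  letI := algebraAlong φ
  haveI := isScalarTower_along φ
  haveI : Module.Finite F F' := FF.finiteAlong φ
  Pic0.pushforwardHom K F F' (FF.normFormulaAlong φ (FF.finiteAlong φ))

/-- Push-forward of divisors of degree zero. -/
def pushDiv (D : Divisor.degZero (K := K) (F := F')) : Divisor.degZero (K := K) (F := F) :=
  ⟨Divisor.pushforwardAlong φ (FF.isIntegralAlong φ) D,
    Divisor.pushforwardAlong_mem_degZero φ (FF.isIntegralAlong φ) D.2⟩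

theorem pushClass_mk (D : Divisor.degZero (K := K) (F := F')) :
    pushClass φ (Pic0.mk D) = Pic0.mk (pushDiv φ D) := rfl

theorem pushClass_smul [IsAlgClosed K] {g : SemilinearAut K F} {g' : SemilinearAut K F'}
    (h : ∀ x, g' • φ x = φ (g • x)) (x : Pic0 K F') :
    pushClass φ (g' • x) = g • pushClass φ x := by
  obtain ⟨D, rfl⟩ := Pic0.mk_surjective x
  rw [SemilinearAut.pic0_smul_mk, pushClass_mk, pushClass_mk, SemilinearAut.pic0_smul_mk]
  refine congrArg Pic0.mk (Subtype.ext ?_)
  exact Kummer.pushforwardAlong_smul φ (FF.isIntegralAlong φ) h D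

end General

local notation "Γℚbar" => AlgebraicClosure ℚ ≃ₐ[ℚ] AlgebraicClosure ℚ

variable (q M' : ℕ) [NeZero q] [NeZero M']

/-- The two push-forwards to level `q * M'`. -/
def levelPush (i : Fin 2) : JZero (q * M' * q) →+ JZero (q * M') :=
  pushClass (degenMap (AlgebraicClosure ℚ) q M' i)

theorem degenMap_galois (i : Fin 2) (σ : Γℚbar) (x : modularFunctionFieldBar (q * M')) :
    arithmeticGalois (modularFunctionFieldFull (q * M' * q)) σ •
        degenMap (AlgebraicClosure ℚ) q M' i x =
      degenMap (AlgebraicClosure ℚ) q M' i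
        (arithmeticGalois (modularFunctionFieldFull (q * M')) σ • x) := by
  unfold degenMap
  split
  · exact Kummer.heckeAlphaBar_galois (q * M') q σ x
  · exact Kummer.heckeBetaBar_galois (q * M') q σ x

/-- The push-forwards commute with Galois. -/
theorem levelPush_smul (i : Fin 2) (σ : Γℚbar) (x : JZero (q * M' * q)) :
    levelPush q M' i (σ • x) = σ • levelPush q M' i x :=
  pushClass_smul _ (degenMap_galois q M' i σ) x

/-- The geometric statement at finite level: classes of `lam`-power order fixed by inertia with
trivial push-forwards are killed by a fixed positive integer. -/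
def KillsInvariantClasses (lam : ℕ) (A : ValuationSubring (AlgebraicClosure ℚ)) : Prop :=
  ∃ D : ℕ, 0 < D ∧ ∀ (n : ℕ) (x : JZero (q * M' * q)), lam ^ n • x = 0 →
    (∀ σ ∈ A.inertiaSubgroupIn ℚ, σ • x = x) → (∀ i, levelPush q M' i x = 0) → D • x = 0

end Fermat.Agent.Carayol
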