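import Fermat.Agent.Carayol.Families
import Fermat.Agent.EC.Torsion.Main
import Mathlib.RingTheory.AlgebraicIndependent.AlgebraicClosure
import Mathlib.RingTheory.IntegralClosure.IntegrallyClosed

/-!
# Finiteness over a subfield

A level structure gives a finite extension of every subfield with a transcendental element.

Main result: `finiteDimensional_of_transcendental`.
-/

set_option autoImplicit false

noncomputable section

open Polynomial IntermediateField

namespace Fermat.Agent.Carayol

variable {K F : Type*} [Field K] [Field F] [Algebra K F]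

/-- Exchange for one transcendental element. -/
theorem isAlgebraic_of_exchange {p x : F} (hx : Transcendental K x)
    (h : IsAlgebraic K⟮p⟯ x) : IsAlgebraic K⟮x⟯ p := by
  by_contra hp
  have hp' : Transcendental (Algebra.adjoin K ({x} : Set F)) p :=
    transcendental_adjoin_iff.1 hp
  have hu : AlgebraicIndependent K (fun _ : Unit => x) :=
    algebraicIndependent_unique_type_iff.2 hx
  have h2 : AlgebraicIndependent K (fun o : Option Unit => o.elim p fun _ => x) := by
    refine (hu.option_iff_transcendental p).2 ?_
    rwa [Set.range_const]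
  have hpu : AlgebraicIndependent K (fun _ : Unit => p) :=
    h2.comp (fun _ => none) fun _ _ _ => rfl
  have h3 : AlgebraicIndependent K (fun o : Option Unit => o.elim x fun _ => p) := by
    have := h2.comp (Equiv.swap none (some ())) (Equiv.injective _)
    convert this using 1
    funext o
    rcases o with _ | ⟨⟩ <;> simp
  have h4 := (hpu.option_iff_transcendental x).1 h3
  rw [Set.range_const, ← transcendental_adjoin_iff] at h4
  exact h4 h

variable [CharZero K] [DecidableEq F] {fam : WeierstrassCurve ℤ[X]} {q r : ℕ}
  (L : LevelData K F fam q r)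

theorem isElliptic_curve (hΔ : fam.Δ ≠ 0) : L.curve.toAffine.IsElliptic := by
  have : CharZero F := charZero_of_injective_algebraMap (algebraMap K F).injective
  refine ⟨isUnit_iff_ne_zero.2 ?_⟩
  rw [WeierstrassCurve.toAffine, LevelData.curve, WeierstrassCurve.map_Δ]
  intro h0
  refine hΔ ((Polynomial.map_eq_zero_iff (Int.cast_injective (α := K))
    (f := Int.castRingHom K)).1 ((transcendental_iff.1 L.transcendental) _ ?_))
  rw [Polynomial.aeval_def, Polynomial.eval₂_map,
    show (algebraMap K F).comp (Int.castRingHom K) = Int.castRingHom F from RingHom.ext_int _ _]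
  simpa using h0

theorem finiteDimensional_adjoin_par [NeZero (q * r)] (hΔ : fam.Δ ≠ 0) :
    FiniteDimensional K⟮L.par⟯ F := by
  classical
  have hE := isElliptic_curve L hΔ
  have : CharZero F := charZero_of_injective_algebraMap (algebraMap K F).injective
  let k := K⟮L.par⟯
  let φ : ℤ[X] →+* k := eval₂RingHom (Int.castRingHom k)
    ⟨L.par, IntermediateField.mem_adjoin_simple_self K L.par⟩
  set W : WeierstrassCurve k := fam.map φ with hW
  have hWF : W.map (algebraMap k F) = L.curve := by
    rw [hW, LevelData.curve, WeierstrassCurve.map_map]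
    congr 1
    exact Polynomial.ringHom_ext (fun n => by simp) (by simp [φ])
  have hint : ∀ v, ∀ z ∈ pointCoords (L.basis v), IsIntegral k z := by
    intro v
    have hv : (q * r) • L.basis v = 0 := by
      rw [← map_nsmul, ← Nat.cast_smul_eq_nsmul (ZMod (q * r)), ZMod.natCast_self, zero_smul,
        map_zero]
    rcases hb : L.basis v with _ | ⟨x, y, hn⟩
    · simp [pointCoords]
    rw [hb] at hv
    have hx : IsIntegral k x := by
      refine IsAlgebraic.isIntegral ⟨W.ΨSq ((q * r : ℕ) : ℤ), fun h0 => ?_, ?_⟩
      · have h1 := W.coeff_ΨSq_ne_zero (n := ((q * r : ℕ) : ℤ))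
          (by exact_mod_cast NeZero.ne (q * r))
        rw [h0, Polynomial.coeff_zero] at h1
        exact h1 rfl
      · have h1 :=
          (@EC.Torsion.nsmul_some_eq_zero_iff F _ _ L.curve.toAffine hE (q * r) x y hn).1 hv
        rw [Polynomial.aeval_def, ← Polynomial.eval_map, ← WeierstrassCurve.map_ΨSq, hWF]
        exact h1
    have ha : ∀ c : k, IsIntegral k (algebraMap k F c) := fun c => isIntegral_algebraMap
    have hy : IsIntegral k y := by
      have he := (WeierstrassCurve.Affine.equation_iff _ _).1 hn.1
      change y ^ 2 + L.curve.a₁ * x * y + L.curve.a₃ * y =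
        x ^ 3 + L.curve.a₂ * x ^ 2 + L.curve.a₄ * x + L.curve.a₆ at he
      rw [← hWF] at he
      simp only [WeierstrassCurve.map_a₁, WeierstrassCurve.map_a₂,
        WeierstrassCurve.map_a₃, WeierstrassCurve.map_a₄, WeierstrassCurve.map_a₆] at he
      set b := algebraMap k F W.a₁ * x + algebraMap k F W.a₃
      set e := x ^ 3 + algebraMap k F W.a₂ * x ^ 2 + algebraMap k F W.a₄ * x + algebraMap k F W.a₆
      have hb' : IsIntegral k b := ((ha _).mul hx).add (ha _)
      have he' : IsIntegral k e :=
        (((hx.pow 3).add ((ha _).mul (hx.pow 2))).add ((ha _).mul hx)).add (ha _)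
      let R := integralClosure k F
      refine isIntegral_trans (A := R) y ⟨Polynomial.X ^ 2 + Polynomial.C (⟨b, hb'⟩ : R) *
        Polynomial.X - Polynomial.C (⟨e, he'⟩ : R), ?_, ?_⟩
      · monicity!
      · simp only [Polynomial.eval₂_sub, Polynomial.eval₂_add, Polynomial.eval₂_mul,
          Polynomial.eval₂_X_pow, Polynomial.eval₂_X, Polynomial.eval₂_C]
        change y ^ 2 + b * y - e = 0
        linear_combination he
    rintro z (rfl | rfl) <;> assumption
  have : ∀ v, Finite (pointCoords (L.basis v)) := fun v => by
    rcases L.basis v with _ | ⟨x, y, hn⟩ <;> simp only [pointCoords] <;> infer_instance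
  have hfin : FiniteDimensional k
      (IntermediateField.adjoin k (⋃ v, pointCoords (L.basis v))) :=
    IntermediateField.finiteDimensional_adjoin fun z hz => by
      obtain ⟨v, hv⟩ := Set.mem_iUnion.1 hz
      exact hint v z hv
  have htop : IntermediateField.adjoin k (⋃ v, pointCoords (L.basis v)) = ⊤ := by
    refine IntermediateField.restrictScalars_injective K ?_
    rw [IntermediateField.restrictScalars_top, IntermediateField.adjoin_adjoin_left,
      ← L.adjoin_eq_top, Set.singleton_union]
  rw [htop] at hfin
  exact Module.Finite.equiv IntermediateField.topEquiv.toLinearEquiv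

include L in
/-- `F` is finite over any subfield containing a transcendental element. -/
theorem finiteDimensional_of_transcendental [NeZero (q * r)] (hΔ : fam.Δ ≠ 0) {A : Type*}
    [Field A] [Algebra K A]
    (emb : A →ₐ[K] F) {t : A} (ht : Transcendental K t) :
    FiniteDimensional emb.fieldRange F := by
  classical
  let E := emb.fieldRange
  let x := emb t
  have hx : Transcendental K x := fun h => ht
    ((isAlgebraic_algHom_iff emb emb.injective).1 h)
  have hfin := finiteDimensional_adjoin_par L hΔ
  have hle : K⟮x⟯ ≤ E := IntermediateField.adjoin_simple_le_iff.2 ⟨t, rfl⟩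
  have hpar : IsAlgebraic E L.par := by
    have h1 := isAlgebraic_of_exchange hx (IsAlgebraic.of_finite K⟮L.par⟯ x)
    let i := (IntermediateField.inclusion hle).toRingHom
    exact h1.ringHom_of_comp_eq i (RingHom.id F) i.injective (RingHom.ext fun _ => rfl)
  let E' := IntermediateField.adjoin E ({L.par} : Set F)
  have : FiniteDimensional E E' := IntermediateField.adjoin.finiteDimensional hpar.isIntegral
  have hle' : ∀ z ∈ K⟮L.par⟯, z ∈ E' := by
    intro z hz
    have : K⟮L.par⟯ ≤ E'.restrictScalars K :=
      IntermediateField.adjoin_simple_le_iff.2 (IntermediateField.mem_adjoin_simple_self E L.par)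
    exact this hz
  let i : K⟮L.par⟯ →+* E' :=
    { toFun := fun z => ⟨z, hle' _ z.2⟩, map_one' := rfl, map_mul' := fun _ _ => rfl,
      map_zero' := rfl, map_add' := fun _ _ => rfl }
  let : Algebra K⟮L.par⟯ E' := i.toAlgebra
  have : IsScalarTower K⟮L.par⟯ E' F := IsScalarTower.of_algebraMap_eq fun _ => rfl
  have : FiniteDimensional E' F := Module.Finite.of_restrictScalars_finite K⟮L.par⟯ E' F
  exact Module.Finite.trans E' F

theorem Δ_famOf_ne_zero (q : ℕ) : (famOf q).Δ ≠ 0 := by
  intro h
  have h2 := congrArg (Polynomial.eval (2 : ℤ)) h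
  by_cases hq : q = 2
  · subst hq
    simp [famOf_two, deuringFam, WeierstrassCurve.Δ, WeierstrassCurve.b₂, WeierstrassCurve.b₄,
      WeierstrassCurve.b₆, WeierstrassCurve.b₈] at h2
  · simp [famOf_of_ne_two hq, legendreFam, WeierstrassCurve.Δ, WeierstrassCurve.b₂,
      WeierstrassCurve.b₄, WeierstrassCurve.b₆, WeierstrassCurve.b₈] at h2

end Fermat.Agent.Carayol
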