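import Fermat.Agent.Carayol.Descent.Push
import Mathlib.RingTheory.Norm.Basic
import Mathlib.FieldTheory.Galois.Infinite

/-!
# Extension of constants and norms

Extension of constants of the modular function fields from a subfield of `ℚ̄` to `ℚ̄`, and its
compatibility with the norms along the degeneracy maps.

Main result: `bc_norm`.
-/

set_option autoImplicit false

noncomputable section

open AlgebraicCurve ModularCurve
open scoped Pointwise

namespace Fermat.Agent.Carayol.BaseChange

open Fermat.Agent.MFGenus (FL)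

local notation "ℚbar" => AlgebraicClosure ℚ
local notation "Γℚbar" => AlgebraicClosure ℚ ≃ₐ[ℚ] AlgebraicClosure ℚ

/-- Shortcut for the algebra of constants of a function field. -/
noncomputable local instance (priority := 10000) algebraConst (K : IntermediateField ℚ ℚbar)
    (N : ℕ) : Algebra K (FL K N) := inferInstance

/-- A field generated by a subfield and constants algebraic over its scalars is spanned by a basis
of the constants. -/
theorem exists_sum_of_generated {K₀ C A B κ : Type*} [Field K₀] [Field C] [Algebra K₀ C]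
    [Algebra.IsAlgebraic K₀ C] [Field A] [Field B] (b : Module.Basis κ K₀ C) (f : C →+* B)
    (u : A →+* B) (g : K₀ →+* A) (hcomm : ∀ c, f (algebraMap K₀ C c) = u (g c)) (z : B)
    (hz : ∀ T : Subfield B, (∀ c, f c ∈ T) → (∀ a, u a ∈ T) → z ∈ T) :
    ∃ l : κ →₀ A, (l.sum fun k a => f (b k) * u a) = z := by
  classical
  let _ : Algebra A B := u.toAlgebra
  have halg : ∀ c : C, IsAlgebraic A (f c) := fun c => by
    obtain ⟨p, hp, hpc⟩ := Algebra.IsAlgebraic.isAlgebraic (R := K₀) c
    refine ⟨p.map g, Polynomial.map_ne_zero hp, ?_⟩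
    rw [Polynomial.aeval_def, Polynomial.eval₂_map,
      show (algebraMap A B).comp g = f.comp (algebraMap K₀ C) from
        RingHom.ext fun c => (hcomm c).symm,
      ← Polynomial.hom_eval₂, ← Polynomial.aeval_def, hpc, map_zero]
  have hmem : z ∈ IntermediateField.adjoin A (Set.range f) :=
    hz (IntermediateField.adjoin A (Set.range f)).toSubfield
      (fun c => IntermediateField.subset_adjoin _ _ ⟨c, rfl⟩)
      fun a => IntermediateField.algebraMap_mem _ a
  rw [← IntermediateField.mem_toSubalgebra,
    IntermediateField.adjoin_toSubalgebra_of_isAlgebraic (by rintro _ ⟨c, rfl⟩; exact halg c),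
    ← Subalgebra.mem_toSubmodule, Algebra.adjoin_eq_span,
    show (Submonoid.closure (Set.range f) : Set B) = Set.range f from
      (congrArg SetLike.coe (Submonoid.closure_eq (MonoidHom.mrange f.toMonoidHom)))] at hmem
  clear hz
  induction hmem using Submodule.span_induction with
  | mem x hx =>
    obtain ⟨c, rfl⟩ := hx
    refine ⟨(b.repr c).mapRange g (map_zero _), ?_⟩
    rw [Finsupp.sum_mapRange_index fun _ => by simp]
    conv_rhs => rw [← b.linearCombination_repr c, Finsupp.linearCombination_apply, map_finsuppSum]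
    exact Finsupp.sum_congr fun k _ => by rw [← hcomm, Algebra.smul_def, map_mul, mul_comm]
  | zero => exact ⟨0, Finsupp.sum_zero_index⟩
  | add x y _ _ hx hy =>
    obtain ⟨l, rfl⟩ := hx
    obtain ⟨l', rfl⟩ := hy
    exact ⟨l + l', Finsupp.sum_add_index' (fun _ => by simp) fun _ _ _ => by simp [mul_add]⟩
  | smul a x _ hx =>
    obtain ⟨l, rfl⟩ := hx
    refine ⟨l.mapRange (a * ·) (mul_zero a), ?_⟩
    rw [Finsupp.sum_mapRange_index fun _ => by simp, Finsupp.smul_sum]
    refine Finsupp.sum_congr fun k _ => ?_
    rw [Algebra.smul_def, RingHom.algebraMap_toAlgebra, map_mul]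
    ring

variable (K : IntermediateField ℚ ℚbar) (N : ℕ)

theorem coeffMap_mem {x : LaurentSeries K}
    (hx : x ∈ laurentBaseChange K (modularFunctionFieldFull N)) :
    coeffMap (algebraMap K ℚbar) x ∈ modularFunctionFieldBar N := by
  rw [mem_laurentBaseChange_iff] at hx
  refine (Subfield.closure_le
    (t := (modularFunctionFieldBar N).toSubfield.comap (coeffMap (algebraMap K ℚbar)))).2 ?_ hx
  rintro _ (⟨c, rfl⟩ | ⟨y, hy, rfl⟩)
  · rw [SetLike.mem_coe, Subfield.mem_comap, algebraMap_laurentSeries_eq_single, coeffMap_single,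
      ← algebraMap_laurentSeries_eq_single]
    exact (modularFunctionFieldBar N).algebraMap_mem _
  · rw [SetLike.mem_coe, Subfield.mem_comap, coeffEmb, coeffMap_coeffMap,
      coeffMap_congr (RingHom.ext_rat _ (algebraMap ℚ ℚbar)) y]
    exact coeffEmb_mem_laurentBaseChange ℚbar hy

/-- Extension of constants. -/
def bc : FL K N →+* modularFunctionFieldBar N :=
  ((coeffMap (algebraMap K ℚbar)).comp (SubringClass.subtype _)).codRestrict _
    fun x => coeffMap_mem K N x.2

@[simp]
theorem coe_bc (x : FL K N) :
    (bc K N x : LaurentSeries ℚbar) = coeffMap (algebraMap K ℚbar) (x : LaurentSeries K) := rfl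

theorem bc_algebraMap (c : K) :
    bc K N (algebraMap K (FL K N) c) = algebraMap ℚbar (modularFunctionFieldBar N) (c : ℚbar) :=
  Subtype.ext (by
    change coeffMap (algebraMap K ℚbar) (algebraMap K (LaurentSeries K) c) =
      algebraMap ℚbar (LaurentSeries ℚbar) _
    rw [algebraMap_laurentSeries_eq_single, coeffMap_single, algebraMap_laurentSeries_eq_single]
    rfl)

theorem smul_bc {σ : Γℚbar} (hσ : ∀ c : K, σ (c : ℚbar) = c) (x : FL K N) :
    arithmeticGalois (modularFunctionFieldFull N) σ • bc K N x = bc K N x := by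
  apply Subtype.ext
  rw [coe_arithmeticGalois_smul, coe_bc, coeffMap_coeffMap]
  exact coeffMap_congr (RingHom.ext fun c => hσ c) _

/-- A function fixed by a group descends to the fixed field of the group. -/
theorem exists_bc_eq [NeZero N] (H : Subgroup Γℚbar) (hK : K = IntermediateField.fixedField H)
    {z : modularFunctionFieldBar N}
    (hz : ∀ σ ∈ H, arithmeticGalois (modularFunctionFieldFull N) σ • z = z) :
    ∃ y : FL K N, bc K N y = z := by
  let ι : K →+* ℂ := Kummer.ιbar.comp (algebraMap K ℚbar)
  have hcoeff : ∀ k, ((z : LaurentSeries ℚbar)).coeff k ∈ K := fun k => by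
    rw [hK]
    rintro ⟨σ, hσ⟩
    have h := congrArg (fun u : modularFunctionFieldBar N => (u : LaurentSeries ℚbar).coeff k)
      (hz σ hσ)
    simp only [coe_arithmeticGalois_smul, coeffMap_coeff] at h
    exact h
  obtain ⟨y, hy⟩ := Kummer.exists_embed_eq_of_coeff ι (N := N)
    (x := Kummer.embed Kummer.ιbar N z) (fun γ hγ => Kummer.slComp_embed _ z hγ)
    (Kummer.meroAtCusps_embed _ z) (Kummer.isExp_embed _ z)
    (fun k => ⟨⟨_, hcoeff k⟩, by rw [coeffMap_coeff]; rfl⟩)
  refine ⟨y, (Kummer.embed_injective Kummer.ιbar N) ?_⟩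
  rw [← hy, Kummer.embed_eq_iff, coe_bc, coeffMap_coeffMap]
  exact Kummer.isExp_embed ι y

/-- Elements of the extended field with coefficients in a `K`-basis of `ℚ̄`. -/
def combo (l : Module.Basis.ofVectorSpaceIndex K ℚbar →₀ FL K N) : modularFunctionFieldBar N :=
  l.sum fun k y =>
    algebraMap ℚbar (modularFunctionFieldBar N) (Module.Basis.ofVectorSpace K ℚbar k) * bc K N y

theorem eq_zero_of_combo_eq_zero {l : Module.Basis.ofVectorSpaceIndex K ℚbar →₀ FL K N}
    (h : combo K N l = 0) : l = 0 := by
  classical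
  ext k₀ : 1
  by_contra hne
  have hk₀ : k₀ ∈ l.support := Finsupp.mem_support_iff.mpr hne
  refine hne (Subtype.ext (HahnSeries.ext (funext fun j => ?_)))
  have h1 := congrArg (fun u : modularFunctionFieldBar N => (u : LaurentSeries ℚbar).coeff j) h
  simp only [combo, Finsupp.sum, AddSubmonoidClass.coe_finsetSum, MulMemClass.coe_mul,
    ZeroMemClass.coe_zero, HahnSeries.coeff_sum, HahnSeries.coeff_zero, coe_bc] at h1
  have h2 : ∑ k ∈ l.support,
      ((l k : FL K N) : LaurentSeries K).coeff j • Module.Basis.ofVectorSpace K ℚbar k = 0 := by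
    rw [← h1]
    refine Finset.sum_congr rfl fun k _ => ?_
    rw [show ((algebraMap ℚbar (modularFunctionFieldBar N) (Module.Basis.ofVectorSpace K ℚbar k) :
        modularFunctionFieldBar N) : LaurentSeries ℚbar) = HahnSeries.single 0
          (Module.Basis.ofVectorSpace K ℚbar k) from algebraMap_laurentSeries_eq_single _ _,
      HahnSeries.coeff_single_zero_mul, coeffMap_coeff, mul_comm, Algebra.smul_def]
  simpa using linearIndependent_iff'.1 (Module.Basis.ofVectorSpace K ℚbar).linearIndependent
    l.support _ h2 k₀ hk₀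

theorem exists_combo (z : modularFunctionFieldBar N) : ∃ l, combo K N l = z := by
  obtain ⟨z, hz⟩ := z
  have hz' := mem_laurentBaseChange_iff.1 hz
  have : Algebra.IsAlgebraic K ℚbar := Kummer.isAlgebraic_qbar.tower_top K
  refine exists_sum_of_generated (Module.Basis.ofVectorSpace K ℚbar) (algebraMap ℚbar _) (bc K N)
    (algebraMap K _) (fun c => (bc_algebraMap K N c).symm) (⟨z, hz⟩ : modularFunctionFieldBar N) ?_
  intro T h1 h2
  have hT : z ∈ T.map (modularFunctionFieldBar N).val.toRingHom := by
    refine (Subfield.closure_le).2 ?_ hz'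
    rintro _ (⟨c, rfl⟩ | ⟨y, hy, rfl⟩)
    · exact Subfield.mem_map.2 ⟨algebraMap ℚbar _ c, h1 c, rfl⟩
    · refine Subfield.mem_map.2
        ⟨bc K N ⟨coeffEmb K y, coeffEmb_mem_laurentBaseChange K hy⟩, h2 _, ?_⟩
      change coeffMap (algebraMap K ℚbar) (coeffMap _ y) = _
      rw [coeffMap_coeffMap]
      exact coeffMap_congr (RingHom.ext_rat _ _) y
  obtain ⟨w, hw, hwz⟩ := Subfield.mem_map.1 hT
  exact (show w = ⟨z, hz⟩ from Subtype.ext hwz) ▸ hw

/-- Algebraic over `K` implies constant. -/
theorem exists_algebraMap_eq_bc [NeZero N] {y : FL K N} (hy : IsAlgebraic K y) :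
    ∃ a : ℚbar, algebraMap ℚbar (modularFunctionFieldBar N) a = bc K N y := by
  refine Kummer.exists_algebraMap_eq (FF.forall_ord_eq_zero_iff.2 ?_)
  obtain ⟨p, hp, hpy⟩ := hy
  refine ⟨p.map (algebraMap K ℚbar), Polynomial.map_ne_zero hp, ?_⟩
  rw [Polynomial.aeval_def, Polynomial.eval₂_map,
    show (algebraMap ℚbar (modularFunctionFieldBar N)).comp (algebraMap K ℚbar) =
      (bc K N).comp (algebraMap K (FL K N)) from RingHom.ext fun c => (bc_algebraMap K N c).symm,
    ← Polynomial.hom_eval₂, ← Polynomial.aeval_def, hpy, map_zero]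

theorem bc_degenMap (q M' : ℕ) [NeZero q] [NeZero M'] (i : Fin 2) (x : FL K (q * M')) :
    bc K (q * M' * q) (degenMap K q M' i x) = degenMap ℚbar q M' i (bc K (q * M') x) := by
  apply Subtype.ext
  unfold degenMap
  split
  · rw [coe_bc, coe_heckeAlphaBar, coe_heckeAlphaBar, coe_bc]
  · rw [coe_bc, coe_heckeBetaBar, coe_heckeBetaBar, coe_bc]
    ext k
    by_cases hk : (q : ℤ) ∣ k
    · obtain ⟨m, rfl⟩ := hk
      rw [coeffMap_coeff, qExpand_coeff_mul, qExpand_coeff_mul, coeffMap_coeff]
    · rw [coeffMap_coeff, qExpand_coeff_of_not_dvd q _ hk, qExpand_coeff_of_not_dvd q _ hk,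
        map_zero]

/-- Norms in a square of field extensions in which the top row is obtained from the bottom row
by a scalar extension with linearly independent constants. -/
theorem map_norm_of_square {A B A' B' κ : Type*} [Field A] [Field B] [Field A'] [Field B']
    [Algebra A B] [Algebra A' B'] [Module.Finite A B] (u : A →+* A') (w : B →+* B')
    (cst : κ → A') (hsq : ∀ a, w (algebraMap A B a) = algebraMap A' B' (u a))
    (hA : ∀ a' : A', ∃ l : κ →₀ A, (l.sum fun k s => cst k * u s) = a')
    (hB : ∀ z : B', ∃ l : κ →₀ B, (l.sum fun k y => algebraMap A' B' (cst k) * w y) = z)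
    (hB0 : ∀ l : κ →₀ B, (l.sum fun k y => algebraMap A' B' (cst k) * w y) = 0 → l = 0)
    (y : B) : u (Algebra.norm A y) = Algebra.norm A' (w y) := by
  classical
  let b := Module.finBasis A B
  have hmap : ∀ (a : A) (x : B), w (a • x) = u a • w x := fun a x => by
    rw [Algebra.smul_def, Algebra.smul_def, map_mul, hsq]
  have hli : LinearIndependent A' fun i => w (b i) := by
    rw [Fintype.linearIndependent_iff]
    intro g hg i
    choose l hl using fun i => hA (g i)
    let F : (κ →₀ B) →+ B' :=
      AddMonoidHom.mk' (fun l => l.sum fun k y => algebraMap A' B' (cst k) * w y) fun l l' =>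
        Finsupp.sum_add_index' (fun _ => by simp) fun _ _ _ => by simp [mul_add]
    let L' : κ →₀ B := ∑ i, (l i).mapRange (fun s => s • b i) (zero_smul _ _)
    have hL' : F L' = 0 := by
      rw [← hg, map_sum]
      refine Finset.sum_congr rfl fun i _ => ?_
      simp only [F, AddMonoidHom.mk'_apply]
      rw [Finsupp.sum_mapRange_index fun _ => by simp, ← hl i, Finsupp.sum, Finsupp.sum,
        Finset.sum_smul]
      refine Finset.sum_congr rfl fun k _ => ?_
      rw [hmap, Algebra.smul_def, Algebra.smul_def, map_mul, mul_assoc]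
    have h0 := hB0 L' hL'
    have hzero : ∀ k, (l i) k = 0 := fun k => by
      have h1 := DFunLike.congr_fun h0 k
      simp only [L', Finsupp.finsetSum_apply, Finsupp.mapRange_apply, Finsupp.coe_zero,
        Pi.zero_apply] at h1
      exact Fintype.linearIndependent_iff.1 b.linearIndependent _ h1 i
    rw [← hl i, show l i = 0 from Finsupp.ext hzero]
    exact Finsupp.sum_zero_index
  have hspan : ⊤ ≤ Submodule.span A' (Set.range fun i => w (b i)) := by
    intro z _
    obtain ⟨l, rfl⟩ := hB z
    refine Submodule.finsuppSum_mem _ _ _ _ fun k _ => ?_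
    rw [← Algebra.smul_def, ← b.sum_repr (l k), map_sum]
    refine Submodule.smul_mem _ _ (Submodule.sum_mem _ fun i _ => ?_)
    rw [hmap]
    exact Submodule.smul_mem _ _ (Submodule.subset_span ⟨i, rfl⟩)
  let b' := Module.Basis.mk hli hspan
  rw [Algebra.norm_eq_matrix_det b, Algebra.norm_eq_matrix_det b', RingHom.map_det]
  congr 1
  ext i j
  rw [RingHom.mapMatrix_apply, Matrix.map_apply, Algebra.leftMulMatrix_eq_repr_mul,
    Algebra.leftMulMatrix_eq_repr_mul, Module.Basis.mk_apply, ← map_mul,
]
  conv_rhs => rw [← b.sum_repr (y * b j), map_sum]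
  simp_rw [hmap, ← show ∀ i, b' i = w (b i) from fun i => Module.Basis.mk_apply hli hspan i]
  rw [b'.repr_sum_self]

/-- `map_norm_of_square` for embeddings of function fields. -/
theorem map_norm_along {k kb A B A' B' κ : Type*} [Field k] [Field kb] [Field A] [Field B]
    [Field A'] [Field B'] [Algebra k A] [Algebra k B] [Algebra kb A'] [Algebra kb B']
    [FF.IsFunctionField k A] [FF.IsFunctionField k B]
    (φ : A →ₐ[k] B) (φb : A' →ₐ[kb] B') (u : A →+* A') (w : B →+* B') (e : κ → kb)
    (hsq : ∀ a, w (φ a) = φb (u a))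
    (hA : ∀ a' : A', ∃ l : κ →₀ A, (l.sum fun i s => algebraMap kb A' (e i) * u s) = a')
    (hB : ∀ z : B', ∃ l : κ →₀ B, (l.sum fun i y => algebraMap kb B' (e i) * w y) = z)
    (hB0 : ∀ l : κ →₀ B, (l.sum fun i y => algebraMap kb B' (e i) * w y) = 0 → l = 0)
    (y : B) :
    u (letI := algebraAlong φ; Algebra.norm A y) =
      (letI := algebraAlong φb; Algebra.norm A' (w y)) := by
  let _ := algebraAlong φ
  let _ := algebraAlong φb
  have : Module.Finite A B := FF.finiteAlong φ
  refine map_norm_of_square u w (fun i => algebraMap kb A' (e i)) hsq hA (fun z => ?_)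
    (fun l hl => hB0 l ?_) y
  · obtain ⟨l, hl⟩ := hB z
    refine ⟨l, Eq.trans (Finsupp.sum_congr fun i _ => ?_) hl⟩
    exact congrArg (· * _) (φb.commutes _)
  · refine Eq.trans (Finsupp.sum_congr fun i _ => ?_) hl
    exact congrArg (· * _) (φb.commutes _).symm

/-- A degeneracy embedding commutes with extension of constants, hence so do the norms. -/
theorem bc_norm {N' : ℕ} [NeZero N] [NeZero N']
    (φ : FL K N →ₐ[K] FL K N') (φb : modularFunctionFieldBar N →ₐ[ℚbar] modularFunctionFieldBar N')
    (h : ∀ x, bc K N' (φ x) = φb (bc K N x)) (y : FL K N') :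
    bc K N (@Algebra.norm (FL K N) (FL K N') _ _ (algebraAlong φ) y) =
      @Algebra.norm (modularFunctionFieldBar N) (modularFunctionFieldBar N') _ _ (algebraAlong φb)
        (bc K N' y) := by
  have hfN := Kummer.isFunctionField_FL (N := N) (Kummer.ιbar.comp (algebraMap K ℚbar))
  have hfN' := Kummer.isFunctionField_FL (N := N') (Kummer.ιbar.comp (algebraMap K ℚbar))
  exact map_norm_along φ φb (bc K N) (bc K N') (Module.Basis.ofVectorSpace K ℚbar) h
    (fun a => exists_combo K N a) (fun z => exists_combo K N' z)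
    (fun _ hl => eq_zero_of_combo_eq_zero K N' hl) y

end Fermat.Agent.Carayol.BaseChange
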