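import Fermat.Agent.FF.Degree
import Fermat.Agent.Carayol.Setup
import Fermat.Prelude.Def_AlgebraicCurve_BaseChangeGalois
import Mathlib.RingTheory.Valuation.LocalSubring

/-!
# Constant extensions are unramified

An extension of the constants by Galois conjugate constants is unramified at every place.

Main result: `isNthPowerLocally`.
-/

set_option autoImplicit false

noncomputable section

open AlgebraicCurve
open scoped Pointwise

namespace Fermat.Agent.Carayol.Constants

variable {k kb A Fb κ : Type*} [Field k] [Field kb] [Algebra k kb] [Field A] [Field Fb]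
  [Algebra kb Fb] (G : Subgroup (SemilinearAut kb Fb)) (u : A →+* Fb)

/-- Galois descent for a stable subspace: the components of a member along constants independent
over the fixed field lie in it. -/
theorem mem_of_sum_mem (W : Submodule kb Fb) (hW : ∀ s ∈ G, ∀ z ∈ W, s • z ∈ W)
    (hu : ∀ s ∈ G, ∀ a, s • u a = u a)
    (hfix : ∀ c : kb, (∀ s ∈ G, SemilinearAut.baseAut s c = c) → ∃ a : k, algebraMap k kb a = c)
    (y : κ → A) (s : Finset κ) :
    ∀ e : κ → kb, (∀ g : κ → k, ∑ i ∈ s, g i • e i = 0 → ∀ i ∈ s, g i = 0) →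
      ∑ i ∈ s, e i • u (y i) ∈ W → ∀ i ∈ s, u (y i) ∈ W := by
  classical
  induction hcard : s.card using Nat.strong_induction_on generalizing s with
  | _ N ih =>
  intro e he hsum
  rcases s.eq_empty_or_nonempty with rfl | hne
  · simp
  have hex : ∃ m, ∃ t ⊆ s, t.card = m ∧ t.Nonempty ∧
      ∃ c : κ → kb, (∀ i ∈ t, c i ≠ 0) ∧ ∑ i ∈ t, c i • u (y i) ∈ W := by
    refine ⟨_, s, subset_rfl, rfl, hne, e, fun i hi h0 => ?_, hsum⟩
    refine one_ne_zero (α := k) ?_
    have := he (fun l => if l = i then 1 else 0)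
      (by
        rw [Finset.sum_eq_single i (by intro b _ hb; simp [hb]) (fun h => (h hi).elim)]; simp [h0])
      i hi
    simp only [if_true] at this
    exact this
  obtain ⟨t, hts, htc, ⟨i₀, hi₀⟩, c, hc, hcW⟩ := Nat.find_spec hex
  set d : κ → kb := fun i => (c i₀)⁻¹ * c i with hd
  have hdW : ∑ i ∈ t, d i • u (y i) ∈ W := by
    simp only [hd, mul_smul, ← Finset.smul_sum]
    exact W.smul_mem _ hcW
  have hdfix : ∀ i ∈ t, ∀ σ ∈ G, SemilinearAut.baseAut σ (d i) = d i := by
    intro i hi σ hσ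
    by_contra hne'
    set t' := t.filter fun l => SemilinearAut.baseAut σ (d l) - d l ≠ 0
    have ht' : i ∈ t' := Finset.mem_filter.2 ⟨hi, sub_ne_zero.2 hne'⟩
    have hi₀' : i₀ ∉ t' := fun h => (Finset.mem_filter.1 h).2 (by
      simp [hd, inv_mul_cancel₀ (hc i₀ hi₀)])
    have hlt : t'.card < Nat.find hex := htc ▸ Finset.card_lt_card
      (Finset.filter_ssubset.2 ⟨i₀, hi₀, fun h => hi₀' (Finset.mem_filter.2 ⟨hi₀, h⟩)⟩)
    refine Nat.find_min hex hlt ⟨t', (Finset.filter_subset _ _).trans hts, rfl, ⟨i, ht'⟩,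
      fun l => SemilinearAut.baseAut σ (d l) - d l, fun l hl => (Finset.mem_filter.1 hl).2, ?_⟩
    have h1 : ∑ l ∈ t, (SemilinearAut.baseAut σ (d l) - d l) • u (y l) ∈ W := by
      simp only [sub_smul, Finset.sum_sub_distrib]
      refine W.sub_mem ?_ hdW
      have := hW σ hσ _ hdW
      rw [Finset.smul_sum] at this
      convert this using 1
      refine Finset.sum_congr rfl fun l _ => ?_
      rw [Algebra.smul_def, Algebra.smul_def, smul_mul', SemilinearAut.smul_algebraMap, hu σ hσ]
    rwa [Finset.sum_filter_of_ne fun l _ hl => by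
      by_contra h0
      exact hl (show (SemilinearAut.baseAut σ (d l) - d l) • u (y l) = 0 by rw [h0, zero_smul])]
  have : ∀ i, ∃ a : k, algebraMap k kb a = if i ∈ t then d i else 0 := fun i => by
    split_ifs with hi
    · exact hfix _ (hdfix i hi)
    · exact ⟨0, map_zero _⟩
  choose a ha using this
  have ha₀ : a i₀ = 1 := (algebraMap k kb).injective (by
    rw [ha, if_pos hi₀, map_one]
    exact inv_mul_cancel₀ (hc i₀ hi₀))
  have haW : ∑ i ∈ s, algebraMap k kb (a i) • u (y i) ∈ W := by
    rwa [← Finset.sum_subset hts fun i _ hi => by rw [ha, if_neg hi, zero_smul],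
      Finset.sum_congr rfl fun i hi => by rw [ha, if_pos hi]]
  set e' : κ → kb := fun i => e i - e i₀ * algebraMap k kb (a i)
  have hi₀s := hts hi₀
  have key : ∀ i ∈ s.erase i₀, u (y i) ∈ W := by
    refine ih _ (by rw [← hcard]; exact Finset.card_erase_lt_of_mem hi₀s) (s.erase i₀) rfl e'
      (fun g hg i hi => ?_) ?_
    · let g' : κ → k := fun l => if l = i₀ then -∑ m ∈ s.erase i₀, g m * a m else g l
      have h0 : ∑ l ∈ s, g' l • e l = 0 := by
        rw [← Finset.add_sum_erase _ _ hi₀s]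
        have : ∑ l ∈ s.erase i₀, g' l • e l = ∑ l ∈ s.erase i₀, g l • e l :=
          Finset.sum_congr rfl fun l hl => by simp [g', Finset.ne_of_mem_erase hl]
        rw [this, show g' i₀ = -∑ m ∈ s.erase i₀, g m * a m from if_pos rfl, ← hg]
        simp only [e', smul_sub, Finset.sum_sub_distrib, neg_smul, Finset.sum_smul]
        rw [sub_eq_add_neg, add_comm]
        congr 2
        exact Finset.sum_congr rfl fun m _ => by
          rw [mul_smul, Algebra.smul_def (a m), mul_comm]
      have := he g' h0 i (Finset.mem_of_mem_erase hi)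
      simpa [g', Finset.ne_of_mem_erase hi] using this
    · have h1 := W.sub_mem hsum (W.smul_mem (e i₀) haW)
      rw [Finset.smul_sum, ← Finset.sum_sub_distrib, ← Finset.add_sum_erase _ _ hi₀s, ha₀,
        map_one, one_smul, sub_self, zero_add] at h1
      simpa only [e', sub_smul, mul_smul] using h1
  intro i hi
  rcases eq_or_ne i i₀ with rfl | hne'
  · have h1 := W.sub_mem haW (W.sum_mem fun l hl => W.smul_mem (algebraMap k kb (a l)) (key l hl))
    rwa [← Finset.add_sum_erase _ _ hi₀s, ha₀, map_one, one_smul, add_sub_cancel_right] at h1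
  · exact key i (Finset.mem_erase.2 ⟨hne', hi⟩)

variable [FF.IsFunctionField kb Fb] (b : Module.Basis κ k kb)

/-- Every place has a uniformiser coming from the smaller field. -/
theorem exists_ord_eq_one (hu : ∀ s ∈ G, ∀ a, s • u a = u a)
    (hfix : ∀ c : kb, (∀ s ∈ G, SemilinearAut.baseAut s c = c) → ∃ a : k, algebraMap k kb a = c)
    (hgen : ∀ z : Fb, ∃ l : κ →₀ A, (l.sum fun i a => algebraMap kb Fb (b i) * u a) = z)
    (v : Place kb Fb) : ∃ a : A, a ≠ 0 ∧ v.ord (u a) = 1 := by
  classical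
  obtain ⟨p, hp, hpv⟩ : ∃ p : A, p ≠ 0 ∧ 0 < v.ord (u p) := by
    by_contra hcon
    push Not at hcon
    refine v.ne_top' (eq_top_iff.mpr fun z _ => ?_)
    obtain ⟨l, rfl⟩ := hgen z
    refine sum_mem fun i _ => mul_mem (v.algebraMap_mem' _) ?_
    change u (l i) ∈ v.toValuationSubring
    rcases eq_or_ne (l i) 0 with h | h
    · rw [h, map_zero]
      exact zero_mem _
    · rw [FF.mem_toValuationSubring_iff_ord v ((map_ne_zero u).2 h)]
      have h1 := hcon (l i)⁻¹ (inv_ne_zero h)
      rw [map_inv₀, v.ord_inv] at h1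
      omega
  let S : Set (Place kb Fb) :=
    {w | ∀ a : A, u a ∈ w.toValuationSubring ↔ u a ∈ v.toValuationSubring}
  have hS : S.Finite := (FF.finite_setOf_ord_pos (K := kb) (u p)).subset fun w hw => by
    have hp' : u p ≠ 0 := (map_ne_zero u).2 hp
    have h1 : ¬ 0 ≤ w.ord (u p⁻¹) := by
      rw [← FF.mem_toValuationSubring_iff_ord w ((map_ne_zero u).2 (inv_ne_zero hp)), hw,
        FF.mem_toValuationSubring_iff_ord v ((map_ne_zero u).2 (inv_ne_zero hp)), map_inv₀,
        v.ord_inv]
      omega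
    rw [map_inv₀, w.ord_inv] at h1
    show 0 < w.ord (u p)
    omega
  obtain ⟨t, ht0, ht⟩ := FF.exists_uniformizer v
  obtain ⟨z, hz⟩ := FF.exists_approx hS.toFinset (fun w => if w = v then t else 0)
    (fun w => if w = v then 2 else 1)
  have hvS : v ∈ S := fun _ => Iff.rfl
  have hzv : v.ord z = 1 := by
    have h := hz v (hS.mem_toFinset.2 hvS)
    rw [if_pos rfl, if_pos rfl] at h
    rw [(FF.ord_eq_of_sub_mem v ht0 (by rw [ht]; exact h)).2, ht]
  let W : Submodule kb Fb := ⨅ w ∈ S, FF.ordGE w 1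
  have hzW : z ∈ W := by
    simp only [W, Submodule.mem_iInf]
    intro w hw
    rcases eq_or_ne w v with rfl | hne
    · exact FF.mem_ordGE_of_le_ord w hzv.ge
    · have h := hz w (hS.mem_toFinset.2 hw)
      rwa [if_neg hne, if_neg hne, sub_zero] at h
  have hW : ∀ s ∈ G, ∀ x ∈ W, s • x ∈ W := by
    intro s hs x hx
    simp only [W, Submodule.mem_iInf] at hx ⊢
    intro w hw
    have hord : ∀ y : Fb, w.ord (s • y) = (s⁻¹ • w).ord y := fun y => by
      rw [← SemilinearAut.ord_smul s (s⁻¹ • w) y, smul_inv_smul]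
    have hmem : s⁻¹ • w ∈ S := fun a => by
      rw [SemilinearAut.smul_toValuationSubring,
        ValuationSubring.mem_pointwise_smul_iff_inv_smul_mem,
        inv_inv, hu s hs]
      exact hw a
    rcases eq_or_ne x 0 with rfl | hx0
    · rw [smul_zero]
      exact zero_mem _
    · refine FF.mem_ordGE_of_le_ord w ?_
      rw [hord]
      exact (FF.mem_ordGE_of_ne_zero (s⁻¹ • w) hx0).1 (hx _ hmem)
  obtain ⟨l, rfl⟩ := hgen z
  have hall := mem_of_sum_mem G u W hW hu hfix l l.support b
    (fun g hg i hi => linearIndependent_iff'.1 b.linearIndependent _ g hg i hi)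
    (by simpa only [Finsupp.sum, Algebra.smul_def] using hzW)
  by_contra hcon
  push Not at hcon
  have hz2 : (l.sum fun i a => algebraMap kb Fb (b i) * u a) ∈ FF.ordGE v 2 := by
    refine Submodule.sum_mem _ fun i hi => ?_
    change algebraMap kb Fb (b i) * u (l i) ∈ _
    rw [← Algebra.smul_def]
    refine Submodule.smul_mem _ _ ?_
    have hli : l i ≠ 0 := Finsupp.mem_support_iff.1 hi
    have h1 := hall i hi
    simp only [W, Submodule.mem_iInf] at h1
    have h2 := (FF.mem_ordGE_of_ne_zero v ((map_ne_zero u).2 hli)).1 (h1 v hvS)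
    exact FF.mem_ordGE_of_le_ord v (by have := hcon _ hli; omega)
  rcases (FF.mem_ordGE v).1 hz2 with h | h
  · rw [h] at hzv
    simp at hzv
  · omega

/-- A valuation subring of a subfield extends. -/
theorem exists_comap_eq {R : Type*} [Field R] (g : R →+* Fb) (V : ValuationSubring R) :
    ∃ B : ValuationSubring Fb, B.comap g = V := by
  obtain ⟨B, hB⟩ := LocalSubring.exists_le_valuationSubring (V.toLocalSubring.map g)
  refine ⟨B, ValuationSubring.toLocalSubring_injective ((V.isMax_toLocalSubring).eq_of_le ?_).symm⟩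
  refine ⟨fun x hx => hB.1 ⟨x, hx, rfl⟩, ⟨fun x hx => ?_⟩⟩
  obtain ⟨y, hy⟩ := x
  have hloc := hB.2
  have h1 : IsUnit (Subring.inclusion hB.1 ⟨g y, y, hy, rfl⟩) := by
    obtain ⟨z, hz⟩ := hx.exists_right_inv
    exact IsUnit.of_mul_eq_one ⟨g (z : R), z.2⟩ (Subtype.ext (by
      show g y * g (z : R) = 1
      rw [← map_mul, ← map_one g]
      exact congrArg g (congrArg Subtype.val hz)))
  obtain ⟨⟨w, hw⟩, hw'⟩ := (hloc.map_nonunit _ h1).exists_right_inv
  obtain ⟨r, hr, rfl⟩ := hw
  refine IsUnit.of_mul_eq_one ⟨r, hr⟩ (Subtype.ext (g.injective ?_))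
  show g (y * r) = g 1
  rw [map_mul, map_one]
  exact congrArg Subtype.val hw'

/-- A function whose divisor upstairs is divisible by `n` is locally an `n`th power downstairs. -/
theorem isNthPowerLocally [IsAlgClosed kb] [Algebra k A] [Algebra.IsAlgebraic k kb]
    (hcomm : ∀ c, u (algebraMap k A c) = algebraMap kb Fb (algebraMap k kb c))
    (hu : ∀ s ∈ G, ∀ a, s • u a = u a)
    (hfix : ∀ c : kb, (∀ s ∈ G, SemilinearAut.baseAut s c = c) → ∃ a : k, algebraMap k kb a = c)
    (hgen : ∀ z : Fb, ∃ l : κ →₀ A, (l.sum fun i a => algebraMap kb Fb (b i) * u a) = z)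
    {F : Type*} [Field F] [Algebra k F] (emb : A →ₐ[k] F) {n : ℕ} {f : A} (hf : f ≠ 0)
    (hdiv : ∀ v : Place kb Fb, (n : ℤ) ∣ v.ord (u f)) :
    IsNthPowerLocally k n (emb f) := by
  intro V hV
  let V' := V.comap emb.toRingHom
  obtain ⟨B, hB⟩ := exists_comap_eq u V'
  have hmem : ∀ a : A, u a ∈ B → emb a ∈ V := fun a ha => by
    have : a ∈ B.comap u := ha
    rw [hB] at this
    exact this
  have hBc : ∀ c : kb, algebraMap kb Fb c ∈ B := fun c => by
    obtain ⟨p, hm, hp⟩ := Algebra.IsIntegral.isIntegral (R := k) c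
    let uk : k →+* B := (((algebraMap kb Fb).comp (algebraMap k kb))).codRestrict B.toSubring
      fun a => by
        have h1 : algebraMap k A a ∈ B.comap u := by
          rw [hB]
          show emb (algebraMap k A a) ∈ V
          rw [AlgHom.commutes]
          exact hV a
        have h2 : u (algebraMap k A a) ∈ B := h1
        rw [hcomm] at h2
        exact h2
    have hint : IsIntegral B (algebraMap kb Fb c) := by
      refine ⟨p.map uk, hm.map uk, ?_⟩
      rw [Polynomial.eval₂_map, show (algebraMap B Fb).comp uk =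
        (algebraMap kb Fb).comp (algebraMap k kb) from rfl, ← Polynomial.hom_eval₂, hp, map_zero]
    obtain ⟨y, hy⟩ := IsIntegrallyClosed.algebraMap_eq_of_integral hint
    exact hy ▸ y.2
  by_cases htop : B = ⊤
  · refine ⟨1, one_ne_zero, ?_, ?_⟩
    · rw [one_pow, div_one]
      exact hmem f (htop ▸ ValuationSubring.mem_top _)
    · rw [one_pow, one_div, ← map_inv₀]
      exact hmem f⁻¹ (htop ▸ ValuationSubring.mem_top _)
  let w : Place kb Fb :=
    ⟨B, hBc, htop, FF.isPrincipalIdealRing_valuationSubring_of_ne_top _ hBc⟩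
  obtain ⟨a, ha, hord⟩ := exists_ord_eq_one G u b hu hfix hgen w
  obtain ⟨m, hm⟩ := hdiv w
  set g := a ^ m
  have hg : g ≠ 0 := zpow_ne_zero _ ha
  have hord' : w.ord (u g) = m := by
    rw [map_zpow₀, w.ord_zpow, hord, mul_one]
  have hmem' : ∀ x : A, x ≠ 0 → 0 ≤ w.ord (u x) → emb x ∈ V := fun x hx h =>
    hmem x ((FF.mem_toValuationSubring_iff_ord w ((map_ne_zero u).2 hx)).2 h)
  refine ⟨emb g, (map_ne_zero _).2 hg, ?_, ?_⟩
  · rw [← map_pow, ← map_div₀]
    refine hmem' _ (div_ne_zero hf (pow_ne_zero n hg)) ?_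
    rw [map_div₀, map_pow, FF.ord_div w ((map_ne_zero u).2 hf)
      (pow_ne_zero n ((map_ne_zero u).2 hg)), FF.ord_pow, hord', hm]
    omega
  · rw [← map_pow, ← map_div₀]
    refine hmem' _ (div_ne_zero (pow_ne_zero n hg) hf) ?_
    rw [map_div₀, map_pow, FF.ord_div w (pow_ne_zero n ((map_ne_zero u).2 hg))
      ((map_ne_zero u).2 hf), FF.ord_pow, hord', hm]
    omega

end Fermat.Agent.Carayol.Constants
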