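import Fermat.Agent.Kummer.Canonical
import Fermat.Agent.Carayol.Descent.Push

/-!
# Invariant generators of invariant torsion classes

An inertia-invariant torsion class contains a divisor `D` with `n D = div f`, `f` invariant.

Main result: `exists_invariant_generator`.
-/

set_option autoImplicit false

noncomputable section

open AlgebraicCurve ModularCurve
open scoped Pointwise

namespace Fermat.Agent.Carayol.Invariant

open Fermat.Agent.MFGenus (FL jElt)
open Fermat.Agent.Kummer (qLead qOrder Adm)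

local notation "ℚbar" => AlgebraicClosure ℚ
local notation "Γℚbar" => AlgebraicClosure ℚ ≃ₐ[ℚ] AlgebraicClosure ℚ

/-- A semilinear automorphism fixing a class `[D]` with `n D = div f` moves `f` by a constant
times an `n`-th power. -/
theorem exists_smul_eq_of_mk_eq {K F : Type*} [Field K] [IsAlgClosed K] [Field F] [Algebra K F]
    [FF.IsFunctionField K F] (s : SemilinearAut K F) {n : ℕ}
    (D : Divisor.degZero (K := K) (F := F)) {f : F} (hf : f ≠ 0)
    (hD : ∀ v, (n : ℤ) * (D : Divisor K F) v = v.ord f) (hfix : s • Pic0.mk D = Pic0.mk D) :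
    ∃ (a : K) (g : F), a ≠ 0 ∧ g ≠ 0 ∧ s • f = algebraMap K F a * (f * g ^ n) := by
  rw [SemilinearAut.pic0_smul_mk] at hfix
  have hmem := (QuotientAddGroup.eq (s := (Divisor.principal (K := K) (F := F)).addSubgroupOf
    Divisor.degZero)).1 hfix.symm
  rw [AddSubgroup.mem_addSubgroupOf] at hmem
  obtain ⟨g, hg, hgD⟩ := hmem
  have hsf : s • f ≠ 0 := (smul_ne_zero_iff_ne _).2 hf
  have hquot : ∀ v : Place K F, v.ord (s • f / (f * g ^ n)) = 0 := fun v => by
    have hg' := hgD v
    simp only [AddSubgroup.coe_add, NegMemClass.coe_neg, SemilinearAut.coe_degZeroSMulHom,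
      Finsupp.add_apply, Finsupp.neg_apply, SemilinearAut.divisor_smul_apply] at hg'
    rw [FF.ord_div v hsf (mul_ne_zero hf (pow_ne_zero n hg)), v.ord_mul hf (pow_ne_zero n hg),
      FF.ord_pow, show v.ord (s • f) = (s⁻¹ • v).ord f by
        rw [← SemilinearAut.ord_smul s (s⁻¹ • v) f, smul_inv_smul], ← hD, ← hD]
    linear_combination (n : ℤ) * hg'
  obtain ⟨a, ha⟩ := Kummer.exists_algebraMap_eq hquot
  have ha' : s • f = algebraMap K F a * (f * g ^ n) := by
    rw [ha, div_mul_cancel₀ _ (mul_ne_zero hf (pow_ne_zero n hg))]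
  exact ⟨a, g, fun h0 => hsf (by rw [ha', h0, map_zero, zero_mul]), hg, ha'⟩

variable {N : ℕ}

/-- The arithmetic action on `ℚ̄(X₀(N))`. -/
abbrev act (N : ℕ) (σ : Γℚbar) : SemilinearAut ℚbar (modularFunctionFieldBar N) :=
  arithmeticGalois (modularFunctionFieldFull N) σ

theorem act_algebraMap (σ : Γℚbar) (c : ℚbar) :
    act N σ • algebraMap ℚbar (modularFunctionFieldBar N) c = algebraMap ℚbar _ (σ c) := by
  rw [SemilinearAut.smul_algebraMap, baseAut_arithmeticGalois]
  rfl

theorem ord_act (σ : Γℚbar) (v : Place ℚbar (modularFunctionFieldBar N))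
    (x : modularFunctionFieldBar N) : v.ord (act N σ • x) = ((act N σ)⁻¹ • v).ord x := by
  rw [← SemilinearAut.ord_smul (act N σ) ((act N σ)⁻¹ • v) x, smul_inv_smul]

theorem order_coeffMap {R S : Type*} [Field R] [Field S] (g : R →+* S) (s : LaurentSeries R) :
    (coeffMap g s).order = s.order := by
  rcases eq_or_ne s 0 with rfl | hs
  · rw [map_zero, HahnSeries.order_zero, HahnSeries.order_zero]
  have hgs : coeffMap g s ≠ 0 := fun h => hs (HahnSeries.ext (funext fun m =>
    g.injective (by rw [← coeffMap_coeff, h, HahnSeries.coeff_zero, HahnSeries.coeff_zero,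
      map_zero])))
  refine le_antisymm (HahnSeries.order_le_of_coeff_ne_zero ?_)
    (HahnSeries.order_le_of_coeff_ne_zero fun h => ?_)
  · rw [coeffMap_coeff, map_ne_zero]
    exact HahnSeries.coeff_order_eq_zero.not.2 hs
  · exact HahnSeries.coeff_order_eq_zero.not.2 hgs (by rw [coeffMap_coeff, h, map_zero])

theorem qOrder_act (σ : Γℚbar) (x : modularFunctionFieldBar N) :
    qOrder (act N σ • x) = qOrder x := by
  rw [qOrder, qOrder, coe_arithmeticGalois_smul]
  exact order_coeffMap _ _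

theorem qLead_act (σ : Γℚbar) (x : modularFunctionFieldBar N) :
    qLead (act N σ • x) = σ (qLead x) := by
  rw [qLead, qOrder_act, coe_arithmeticGalois_smul, coeffMap_coeff]
  rfl

theorem act_jElt [NeZero N] (σ : Γℚbar) : act N σ • jElt ℚbar N = jElt ℚbar N := by
  apply Subtype.ext
  rw [coe_arithmeticGalois_smul]
  change coeffMap (σ : ℚbar →+* ℚbar) (coeffEmb ℚbar (qExpand ℚ 1 jq)) =
    coeffEmb ℚbar (qExpand ℚ 1 jq)
  rw [coeffEmb, coeffMap_coeffMap]
  exact coeffMap_congr (RingHom.ext_rat _ _) _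

/-- A torsion class fixed by a group contains a divisor with invariant `n`-fold principal
generator. -/
theorem exists_invariant_generator [NeZero N] {n : ℕ} (hn : n ≠ 0) {x : JZero N}
    (hx : n • x = 0) (H : Subgroup Γℚbar) (hH : ∀ σ ∈ H, σ • x = x) :
    ∃ (D : Divisor.degZero (K := ℚbar) (F := modularFunctionFieldBar N))
      (f : modularFunctionFieldBar N), Pic0.mk D = x ∧ f ≠ 0 ∧
        (∀ v, (n : ℤ) * (D : Divisor ℚbar (modularFunctionFieldBar N)) v = v.ord f) ∧
        ∀ σ ∈ H, act N σ • f = f := by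
  obtain ⟨D, rfl⟩ := Pic0.mk_surjective x
  change ((n • D : Divisor.degZero (K := ℚbar) (F := modularFunctionFieldBar N)) : JZero N) = 0
    at hx
  rw [QuotientAddGroup.eq_zero_iff, AddSubgroup.mem_addSubgroupOf] at hx
  obtain ⟨f₀, hf₀, hfD⟩ := hx
  have hD : ∀ v, (n : ℤ) * (D : Divisor ℚbar (modularFunctionFieldBar N)) v = v.ord f₀ :=
      fun v => by
    simpa using hfD v
  obtain ⟨m, f₁, hadm, hlead, huniq⟩ :=
    Kummer.exists_canonical (N := N) Kummer.ιbar hn hf₀
  have hf₁0 := hadm.ne_zero hf₀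
  obtain ⟨⟨c, h, hc, hh, he⟩, hv⟩ := id hadm
  -- the divisor of `h`
  let Dh : Divisor.degZero (K := ℚbar) (F := modularFunctionFieldBar N) :=
    ⟨FF.divOf ℚbar h, FF.degree_divOf h⟩
  refine ⟨D + Dh, f₁, ?_, hf₁0, fun v => ?_, fun σ hσ => ?_⟩
  · refine ((map_add (QuotientAddGroup.mk' _) D Dh).trans ?_)
    rw [show (QuotientAddGroup.mk' _ Dh : JZero N) = 0 from
      (QuotientAddGroup.eq_zero_iff _).mpr ⟨h, hh, fun w => FF.divOf_apply h w⟩, add_zero]
    rfl
  · rw [AddSubgroup.coe_add, Finsupp.add_apply, mul_add, hD,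
      show (Dh : Divisor ℚbar (modularFunctionFieldBar N)) v = v.ord h from FF.divOf_apply h v, he,
      v.ord_mul (mul_ne_zero ((map_ne_zero _).2 hc) hf₀) (pow_ne_zero n hh),
      v.ord_mul ((map_ne_zero _).2 hc) hf₀, FF.ord_algebraMap, FF.ord_pow, zero_add]
  -- the class being fixed, `σ f₀` differs from `f₀` by a constant times an `n`-th power
  obtain ⟨a, g, ha0, hg, ha'⟩ := exists_smul_eq_of_mk_eq (act N σ) D hf₀ hD (hH σ hσ)
  refine huniq _ ⟨⟨σ c * a, g * (act N σ • h), mul_ne_zero ((map_ne_zero σ).2 hc) ha0,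
    mul_ne_zero hg ((smul_ne_zero_iff_ne _).2 hh), ?_⟩, fun v => ?_⟩ ?_ (qOrder_act σ f₁).ge
  · rw [he, smul_mul', smul_mul', smul_pow', act_algebraMap, ha', map_mul]
    ring
  · have h1 := hv ((act N σ)⁻¹ • v)
    rw [ord_act, show v.ord (jElt ℚbar N) = ((act N σ)⁻¹ • v).ord (jElt ℚbar N) by
      rw [← ord_act, act_jElt]]
    exact h1
  · rw [qLead_act, hlead, map_one]

/-- If the norm of an invariant function has principal `n`-fold divisor, it is a constant times
the `n`-th power of an invariant function. -/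
theorem exists_invariant_root [NeZero N] {n : ℕ} (hn : n ≠ 0) {F₁ h₀ : modularFunctionFieldBar N}
    (hF : F₁ ≠ 0) (hh₀ : h₀ ≠ 0) (hord : ∀ v : Place ℚbar (modularFunctionFieldBar N),
      v.ord F₁ = (n : ℤ) * v.ord h₀)
    (H : Subgroup Γℚbar) (hfix : ∀ σ ∈ H, act N σ • F₁ = F₁) :
    ∃ (a : ℚbar) (h : modularFunctionFieldBar N), a ≠ 0 ∧ h ≠ 0 ∧
      F₁ = algebraMap ℚbar _ a * h ^ n ∧ (∀ σ ∈ H, σ a = a) ∧ ∀ σ ∈ H, act N σ • h = h := by
  set h := algebraMap ℚbar (modularFunctionFieldBar N) (qLead h₀)⁻¹ * h₀ with hh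
  have hl : qLead h₀ ≠ 0 := Kummer.qLead_ne_zero hh₀
  have hne : h ≠ 0 := mul_ne_zero ((map_ne_zero _).2 (inv_ne_zero hl)) hh₀
  have hlead : qLead h = 1 := by
    rw [hh, Kummer.qLead_mul (inv_ne_zero hl), inv_mul_cancel₀ hl]
  have hord' : ∀ v : Place ℚbar (modularFunctionFieldBar N), v.ord h = v.ord h₀ := fun v => by
    rw [hh, v.ord_mul ((map_ne_zero _).2 (inv_ne_zero hl)) hh₀, FF.ord_algebraMap, zero_add]
  obtain ⟨a, ha⟩ := Kummer.exists_algebraMap_eq (K := ℚbar) (u := F₁ / h ^ n) fun v => by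
    rw [FF.ord_div v hF (pow_ne_zero n hne), FF.ord_pow, hord', hord, sub_self]
  have hFa : F₁ = algebraMap ℚbar _ a * h ^ n := by
    rw [ha, div_mul_cancel₀ _ (pow_ne_zero n hne)]
  have ha0 : a ≠ 0 := fun h0 => hF (by rw [hFa, h0, map_zero, zero_mul])
  have hinv : ∀ σ ∈ H, act N σ • h = h := fun σ hσ => by
    have hσh : act N σ • h ≠ 0 := (smul_ne_zero_iff_ne _).2 hne
    have hquot : ∀ v : Place ℚbar (modularFunctionFieldBar N), v.ord (act N σ • h / h) = 0 :=
      fun v => by
      rw [FF.ord_div v hσh hne]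
      have e1 : v.ord (act N σ • F₁) = (n : ℤ) * v.ord (act N σ • h) := by
        rw [hFa, smul_mul', smul_pow', act_algebraMap, v.ord_mul ((map_ne_zero _).2
          ((map_ne_zero σ).2 ha0)) (pow_ne_zero n hσh), FF.ord_algebraMap, FF.ord_pow, zero_add]
      rw [hfix σ hσ, hord, ← hord', mul_right_inj' (Int.natCast_ne_zero.2 hn)] at e1
      rw [← e1, sub_self]
    obtain ⟨b, hb⟩ := Kummer.exists_algebraMap_eq hquot
    have hb' : act N σ • h = algebraMap ℚbar _ b * h := by rw [hb, div_mul_cancel₀ _ hne]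
    have hb0 : b ≠ 0 := fun h0 => hσh (by rw [hb', h0, map_zero, zero_mul])
    have hb1 : b = 1 := by
      have := congrArg qLead hb'
      rwa [qLead_act, hlead, map_one, Kummer.qLead_mul hb0, hlead, mul_one, eq_comm] at this
    rw [hb', hb1, map_one, one_mul]
  refine ⟨a, h, ha0, hne, hFa, fun σ hσ => ?_, hinv⟩
  have h1 := hfix σ hσ
  rw [hFa, smul_mul', smul_pow', act_algebraMap, hinv σ hσ] at h1
  exact (algebraMap ℚbar (modularFunctionFieldBar N)).injective
    (mul_right_cancel₀ (pow_ne_zero n hne) h1)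

end Fermat.Agent.Carayol.Invariant
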