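import Fermat.Agent.Carayol.Descent.InertiaField
import Fermat.Agent.Carayol.PointVert
import Fermat.Agent.EC.Reduction.Galois

/-!
# Unique extension from the fixed field of inertia

The valuation ring of the fixed field of inertia extends uniquely to the algebraic closure.

Main result: `uniqueExt_ring`.
-/

set_option autoImplicit false

noncomputable section

namespace Fermat.Agent.Carayol.InertiaField

open Polynomial IntermediateField

local notation "Qbar" => AlgebraicClosure ℚ
local notation "AbsGal" => AlgebraicClosure ℚ ≃ₐ[ℚ] AlgebraicClosure ℚ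

variable (A : ValuationSubring (AlgebraicClosure ℚ))

/-- Conjugates over the fixed field of inertia are inertia conjugates. -/
theorem exists_inertia_apply_eq (σ : Qbar ≃ₐ[field A] Qbar) (y : Qbar) :
    ∃ τ ∈ A.inertiaSubgroupIn ℚ, σ y = τ y := by
  let L : IntermediateField ℚ Qbar :=
    IntermediateField.normalClosure ℚ ↥(IntermediateField.adjoin ℚ ({y} : Set Qbar)) Qbar
  have : FiniteDimensional ℚ (IntermediateField.adjoin ℚ ({y} : Set Qbar)) :=
    IntermediateField.adjoin.finiteDimensional (Algebra.IsIntegral.isIntegral y)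
  have : FiniteDimensional ℚ L := normalClosure.is_finiteDimensional ℚ _ _
  have : Normal ℚ L := normalClosure.normal ℚ _ _
  have hyL : y ∈ L :=
    IntermediateField.le_normalClosure _ (IntermediateField.mem_adjoin_simple_self ℚ y)
  let H : Subgroup (L ≃ₐ[ℚ] L) := (A.inertiaSubgroupIn ℚ).map (AlgEquiv.restrictNormalHom L)
  let σ₀ : AbsGal := σ.restrictScalars ℚ
  have hmem : AlgEquiv.restrictNormalHom L σ₀ ∈ H := by
    rw [← IntermediateField.fixingSubgroup_fixedField H, IntermediateField.mem_fixingSubgroup_iff]
    intro z hz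
    have hzK : (z : Qbar) ∈ field A := (mem_field_iff A).2 fun τ hτ => by
      have h := hz ⟨_, Subgroup.mem_map_of_mem (AlgEquiv.restrictNormalHom L) hτ⟩
      exact (AlgEquiv.restrictNormal_commutes τ L z).symm.trans (congrArg Subtype.val h)
    refine Subtype.ext ((AlgEquiv.restrictNormal_commutes σ₀ L z).trans ?_)
    exact σ.commutes ⟨_, hzK⟩
  obtain ⟨τ, hτ, hτeq⟩ := Subgroup.mem_map.mp hmem
  refine ⟨τ, hτ, ?_⟩
  calc σ y = σ₀ (algebraMap L Qbar ⟨y, hyL⟩) := rfl
    _ = algebraMap L Qbar (AlgEquiv.restrictNormalHom L σ₀ ⟨y, hyL⟩) :=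
        (AlgEquiv.restrictNormal_commutes σ₀ L _).symm
    _ = algebraMap L Qbar (AlgEquiv.restrictNormalHom L τ ⟨y, hyL⟩) := by rw [hτeq]
    _ = τ y := AlgEquiv.restrictNormal_commutes τ L _

/-- A valuation ring of `ℚ̄` over the ring of the fixed field is the given place. -/
theorem eq_of_comap_eq {B : ValuationSubring Qbar}
    (hB : B.comap (algebraMap (field A) Qbar) = ring A) : B = A := by
  classical
  have hAK : ∀ z : field A, (z : Qbar) ∈ B ↔ (z : Qbar) ∈ A := fun z => by
    show z ∈ B.comap (algebraMap (field A) Qbar) ↔ z ∈ ring A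
    rw [hB]
  have : Normal (field A) Qbar := Normal.tower_top_of_normal ℚ (field A) Qbar
  have hroot : ∀ y : Qbar, y ∈ A → ∀ c ∈ ((minpoly (field A) y).map (algebraMap _ Qbar)).roots,
      c ∈ A ∧ (y ∈ A.nonunits → c ∈ A.nonunits) := by
    intro y hy c hc
    have hint : IsIntegral (field A) y := Algebra.IsIntegral.isIntegral y
    have hc0 : aeval c (minpoly (field A) y) = 0 := by
      have := isRoot_of_mem_roots hc
      rwa [IsRoot, eval_map, ← aeval_def] at this
    have hcy : minpoly (field A) y = minpoly (field A) c :=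
      minpoly.eq_of_irreducible_of_monic (minpoly.irreducible hint) hc0 (minpoly.monic hint)
    obtain ⟨σ, hσ⟩ := (Normal.minpoly_eq_iff_mem_orbit (F := field A) (E := Qbar)).mp hcy.symm
    obtain ⟨τ, hτ, hστ⟩ := exists_inertia_apply_eq A σ y
    change σ y = c at hσ
    rw [← hσ, hστ]
    have hd := Fermat.Agent.EC.Reduction.mem_decomposition_of_mem_inertia hτ
    refine ⟨Fermat.Agent.EC.Reduction.apply_mem_of_mem_decomposition hd hy, fun hn => ?_⟩
    rcases A.mem_nonunits_iff_or.mp hn with h0 | h0
    · exact A.mem_nonunits_iff_or.mpr (Or.inl (by rw [h0, map_zero]))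
    · refine A.mem_nonunits_iff_or.mpr (Or.inr fun h => h0 ?_)
      have hd' : τ⁻¹ ∈ A.decompositionSubgroup ℚ := inv_mem hd
      rw [← map_inv₀] at h
      have := Fermat.Agent.EC.Reduction.apply_mem_of_mem_decomposition hd' h
      rwa [← AlgEquiv.mul_apply, inv_mul_cancel] at this
  -- coefficients of minimal polynomials
  have hcoeff : ∀ y : Qbar, y ∈ A → ∀ i, ((minpoly (field A) y).coeff i : Qbar) ∈ A ∧
      (y ∈ A.nonunits → i < (minpoly (field A) y).natDegree →
        ((minpoly (field A) y).coeff i : Qbar) ∈ A.nonunits) := by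
    intro y hy i
    set p := (minpoly (field A) y).map (algebraMap _ Qbar) with hp
    have hm : p.Monic := (minpoly.monic (Algebra.IsIntegral.isIntegral y)).map _
    have he : p = ((p.roots.attach.map fun c : {x // x ∈ p.roots} =>
      X - C (⟨c.1, (hroot y hy c.1 c.2).1⟩ : A)).prod).map
        A.subtype := by
      conv_lhs => rw [(IsAlgClosed.splits p).eq_prod_roots_of_monic hm]
      rw [Polynomial.map_multiset_prod, Multiset.map_map]
      simp only [Function.comp_def, Polynomial.map_sub, map_X, map_C]
      exact congrArg Multiset.prod (Multiset.attach_map_val' p.roots fun c => X - C c).symm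
    set P := (p.roots.attach.map fun c : {x // x ∈ p.roots} =>
      X - C (⟨c.1, (hroot y hy c.1 c.2).1⟩ : A)).prod
    have hi : ((minpoly (field A) y).coeff i : Qbar) = ((P.coeff i : A) : Qbar) := by
      have := congrArg (fun u => u.coeff i) he
      simp only [hp, coeff_map] at this
      exact this
    refine ⟨hi ▸ (P.coeff i).2, fun hyn hid => ?_⟩
    rw [hi]
    have hPm : P.map (IsLocalRing.residue A) = X ^ Multiset.card p.roots := by
      rw [Polynomial.map_multiset_prod, Multiset.map_map]
      rw [Multiset.map_congr rfl (g := fun _ => (X : (IsLocalRing.ResidueField A)[X]))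
        fun c _ => ?_, Multiset.map_const', Multiset.prod_replicate, Multiset.card_attach]
      simp only [Function.comp_apply, Polynomial.map_sub, map_X, map_C]
      rw [(IsLocalRing.residue_eq_zero_iff _).mpr
        ((A.coe_mem_nonunits_iff).mp ((hroot y hy c.1 c.2).2 hyn)), map_zero, sub_zero]
    refine (A.coe_mem_nonunits_iff).mpr ((IsLocalRing.residue_eq_zero_iff _).mp ?_)
    rw [← coeff_map, hPm, coeff_X_pow, if_neg]
    rw [← (IsAlgClosed.splits p).natDegree_eq_card_roots, hp, natDegree_map]
    omega
  refine le_antisymm (fun x hx => ?_) fun y hy => ?_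
  · by_contra hxA
    set y := x⁻¹
    have hy : y ∈ A := (A.mem_or_inv_mem x).resolve_left hxA
    have hyn : y ∈ A.nonunits := A.mem_nonunits_iff_or.mpr (Or.inr (by rwa [inv_inv]))
    have hx0 : x ≠ 0 := fun h => hxA (h ▸ zero_mem _)
    set p := minpoly (field A) y with hp
    have hint : IsIntegral (field A) y := Algebra.IsIntegral.isIntegral y
    have hdeg : p.natDegree ≠ 0 := (minpoly.natDegree_pos hint).ne'
    -- multiply by a power of `x`
    have hzero : ∑ i ∈ Finset.range (p.natDegree + 1), (p.coeff i : Qbar) * y ^ i = 0 := by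
      have := minpoly.aeval (field A) y
      rw [aeval_eq_sum_range] at this
      simpa [Algebra.smul_def, IntermediateField.algebraMap_apply] using this
    rw [Finset.sum_range_succ, minpoly.monic hint |>.coeff_natDegree] at hzero
    have hB1 : (1 : Qbar) ∈ B.nonunits := by
      have e : (1 : Qbar) = -∑ i ∈ Finset.range p.natDegree,
          (p.coeff i : Qbar) * x ^ (p.natDegree - i) := by
        rw [← mul_left_inj' (pow_ne_zero p.natDegree (inv_ne_zero hx0)), neg_mul, Finset.sum_mul,
          one_mul, eq_neg_iff_add_eq_zero, add_comm]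
        convert hzero using 2
        · refine Finset.sum_congr rfl fun i hi => ?_
          rw [mul_assoc]
          congr 1
          show x ^ (p.natDegree - i) * x⁻¹ ^ p.natDegree = x⁻¹ ^ i
          rw [inv_pow, inv_pow, ← div_eq_mul_inv,
            pow_sub₀ x hx0 (Finset.mem_range.mp hi).le]
          field_simp
        · simp [y]
      rw [e]
      refine neg_mem (sum_mem fun i hi => ?_)
      have hlt := Finset.mem_range.mp hi
      have hc := (hcoeff y hy i).2 hyn hlt
      have hcB : (p.coeff i : Qbar) ∈ B.nonunits := by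
        rcases A.mem_nonunits_iff_or.mp hc with h0 | h0
        · exact B.mem_nonunits_iff_or.mpr (Or.inl h0)
        · refine B.mem_nonunits_iff_or.mpr (Or.inr fun h => h0 ?_)
          have h' := (hAK (p.coeff i)⁻¹).mp (by rwa [IntermediateField.coe_inv])
          rwa [IntermediateField.coe_inv] at h'
      exact mul_comm (p.coeff i : Qbar) _ ▸ nonunits_mul_left (pow_mem hx _) hcB
    exact one_notMem_nonunits B hB1
  · set p := minpoly (field A) y
    have hl : p.map (algebraMap _ Qbar) ∈ lifts B.toSubring.subtype :=
      (lifts_iff_coeff_lifts _).mpr fun i => ⟨⟨_, (hAK (p.coeff i)).mpr (hcoeff y hy i).1⟩,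
        by rw [coeff_map]; rfl⟩
    obtain ⟨p', hp', -, hp'm⟩ := lifts_and_natDegree_eq_and_monic hl
      ((minpoly.monic (Algebra.IsIntegral.isIntegral y)).map _)
    obtain ⟨z, hz⟩ := (IsIntegrallyClosedIn.isIntegral_iff (R := B) (A := Qbar)).mp
      (show IsIntegral B y from ⟨p', hp'm, by
        rw [eval₂_eq_eval_map, show (algebraMap B Qbar) = B.toSubring.subtype from rfl, hp',
          eval_map, ← aeval_def, minpoly.aeval]⟩)
    exact hz ▸ z.2

variable {A}

/-- **Unique extension.** -/
theorem uniqueExt_ring {q : ℕ} (_hq : q.Prime) (A : ValuationSubring Qbar)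
    (_hA : A.LiesOverPrime q) : UniqueExt (ring A) := by
  intro V V' hV hV'
  have : IsAlgClosure (field A) Qbar :=
    ⟨inferInstance, Algebra.IsAlgebraic.tower_top (K := ℚ) (field A)⟩
  let e : AlgebraicClosure (field A) ≃ₐ[field A] Qbar := IsAlgClosure.equiv (field A) _ _
  have key : ∀ U : ValuationSubring (AlgebraicClosure (field A)),
      U.comap (algebraMap (field A) (AlgebraicClosure (field A))) = ring A →
      U = A.comap (e : AlgebraicClosure (field A) →+* Qbar) := by
    intro U hU
    have hB := eq_of_comap_eq A (B := U.comap (e.symm : Qbar →+* AlgebraicClosure (field A))) (by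
      rw [ValuationSubring.comap_comap, ← hU]
      congr 1
      exact RingHom.ext fun z => e.symm.commutes z)
    refine Eq.trans ?_
      (congrArg (ValuationSubring.comap · (e : AlgebraicClosure (field A) →+* Qbar)) hB)
    rw [ValuationSubring.comap_comap]
    ext x
    simp
  rw [key V hV, key V' hV']

end Fermat.Agent.Carayol.InertiaField
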