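import Fermat.Agent.Carayol.Descent.BaseChange
import Fermat.Agent.Carayol.Descent.Invariant
import Fermat.Agent.Carayol.Descent.Constants
import Fermat.Agent.Carayol.Geo
import Mathlib.RingTheory.Norm.Transitivity
import Fermat.Agent.Carayol.Descent.UniqueExtField

/-!
# Descent to the fixed field of inertia

The geometric input of Carayol's theorem at finite level, from its version for level structures
over the fixed field of inertia.

Main result: `killsInvariantClasses`.
-/

set_option autoImplicit false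

noncomputable section

open AlgebraicCurve ModularCurve
open scoped Pointwise

namespace Fermat.Agent.Carayol

open Fermat.Agent.MFGenus (FL)
open BaseChange InertiaField

local notation "ℚbar" => AlgebraicClosure ℚ
local notation "Γℚbar" => AlgebraicClosure ℚ ≃ₐ[ℚ] AlgebraicClosure ℚ

/-- Shortcut for the algebra of constants of a function field. -/
noncomputable local instance (priority := 10000) algebraConstDescent
    (K : IntermediateField ℚ ℚbar) (N : ℕ) : Algebra K (FL K N) := inferInstance

variable {q M' : ℕ} [NeZero q] [NeZero M']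

/-- If both push-forwards of `[D]` vanish, `n D = div (bc f)` makes the norms of `f` constants
times `n`-th powers. -/
theorem isConstMulPow_norm (K : IntermediateField ℚ ℚbar) (H : Subgroup Γℚbar)
    (hK : K = IntermediateField.fixedField H) (i : Fin 2) {n : ℕ} (hn : n ≠ 0)
    (D : Divisor.degZero (K := ℚbar) (F := modularFunctionFieldBar (q * M' * q)))
    {f : FL K (q * M' * q)} (hf : f ≠ 0)
    (hdiv : ∀ v, (n : ℤ) * (D : Divisor ℚbar (modularFunctionFieldBar (q * M' * q))) v =
      v.ord (bc K (q * M' * q) f))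
    (hpush : levelPush q M' i (Pic0.mk D) = 0) :
    ∃ (a : K) (h : FL K (q * M')),
      @Algebra.norm (FL K (q * M')) (FL K (q * M' * q)) _ _ (algebraAlong (degenMap K q M' i)) f =
        algebraMap K _ a * h ^ n := by
  let φb := degenMap ℚbar q M' i
  rw [levelPush, pushClass_mk] at hpush
  replace hpush := (QuotientAddGroup.eq_zero_iff _).1 hpush
  rw [AddSubgroup.mem_addSubgroupOf] at hpush
  obtain ⟨h₀, hh₀, hh⟩ := hpush
  have hf' : bc K (q * M' * q) f ≠ 0 := (map_ne_zero _).2 hf
  set N₁ := @Algebra.norm (modularFunctionFieldBar (q * M'))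
    (modularFunctionFieldBar (q * M' * q)) _ _ (algebraAlong φb) (bc K (q * M' * q) f) with hN₁
  have hN₁0 : N₁ ≠ 0 := by
    let _ := algebraAlong φb
    have : Module.Finite (modularFunctionFieldBar (q * M'))
      (modularFunctionFieldBar (q * M' * q)) := FF.finiteAlong φb
    exact Algebra.norm_ne_zero_iff.2 hf'
  have hord : ∀ v : Place ℚbar (modularFunctionFieldBar (q * M')),
      v.ord N₁ = (n : ℤ) * v.ord h₀ := fun v => by
    have h1 : Divisor.pushforwardAlong φb (FF.isIntegralAlong φb)
        (n • (D : Divisor ℚbar (modularFunctionFieldBar (q * M' * q)))) v = v.ord N₁ :=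
      FF.normFormulaAlong φb (FF.finiteAlong φb) _ hf'
        (n • (D : Divisor ℚbar (modularFunctionFieldBar (q * M' * q))))
        (fun w => by rw [Finsupp.smul_apply, nsmul_eq_mul]; exact hdiv w) v
    rw [map_nsmul, Finsupp.smul_apply, nsmul_eq_mul] at h1
    rw [← h1, ← hh v]
    rfl
  have hbc : bc K (q * M') (@Algebra.norm (FL K (q * M')) (FL K (q * M' * q)) _ _
      (algebraAlong (degenMap K q M' i)) f) = N₁ :=
    bc_norm K (q * M') (degenMap K q M' i) φb (bc_degenMap K q M' i) f
  have hKfix : ∀ σ ∈ H, ∀ c : K, σ (c : ℚbar) = c := by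
    subst hK
    exact fun σ hσ c => c.2 ⟨σ, hσ⟩
  obtain ⟨a, h, -, -, he, ha, hfix⟩ := Invariant.exists_invariant_root hn hN₁0 hh₀ hord H
    fun σ hσ => by
      rw [← hbc]
      exact smul_bc K _ (hKfix σ hσ) _
  have haK : a ∈ K := by
    rw [hK]
    exact fun σ => ha σ.1 σ.2
  obtain ⟨h', rfl⟩ := exists_bc_eq K (q * M') H hK hfix
  refine ⟨⟨a, haK⟩, h', (bc K (q * M')).injective ?_⟩
  rw [hbc, he, map_mul, map_pow, bc_algebraMap]

/-- A constant multiple of an `n`-th power descends along a finite extension, at the cost of the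
degree. -/
theorem exists_pow_finrank_eq {K A F : Type*} [Field K] [Field A] [Field F] [Algebra K A]
    [Algebra K F] (emb : A →ₐ[K] F) [FiniteDimensional emb.fieldRange F] {n : ℕ} {a : A}
    (h : IsConstMulPow K n (emb a)) :
    ∃ c g : A, IsAlgebraic K c ∧ a ^ Module.finrank emb.fieldRange F = c * g ^ n := by
  obtain ⟨c, g, hc, he⟩ := h
  let a' : emb.fieldRange := ⟨emb a, a, rfl⟩
  have h1 := congrArg (Algebra.norm emb.fieldRange) he
  rw [show emb a = algebraMap emb.fieldRange F a' from rfl, Algebra.norm_algebraMap, map_mul,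
    map_pow] at h1
  obtain ⟨c₁, hc₁⟩ := (Algebra.norm emb.fieldRange c).2
  obtain ⟨g₁, hg₁⟩ := (Algebra.norm emb.fieldRange g).2
  refine ⟨c₁, g₁, ?_, emb.injective ?_⟩
  · refine (isAlgebraic_algHom_iff emb emb.injective).1 ?_
    have hi := Algebra.isIntegral_norm (R := K) emb.fieldRange hc.isIntegral
    have := hi.map (IntermediateField.val emb.fieldRange)
    rw [IntermediateField.coe_val] at this
    exact (show IsIntegral K (emb c₁) by convert this using 1; exact hc₁).isAlgebraic
  · have h2 := congrArg Subtype.val h1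
    rw [SubmonoidClass.coe_pow, MulMemClass.coe_mul, SubmonoidClass.coe_pow] at h2
    rw [map_pow, map_mul, map_pow]
    exact h2.trans (by rw [← hc₁, ← hg₁])

/-- **Descent.** The classes of `lam`-power order fixed by inertia whose push-forwards vanish are
killed by a fixed positive integer. -/
theorem killsInvariantClasses (hq : q.Prime) (hqM : M'.Coprime q) {lam : ℕ} (hlam : lam.Prime)
    (hne : lam ≠ q) {A : ValuationSubring ℚbar} (hA : A.LiesOverPrime q) :
    KillsInvariantClasses q M' lam A := by
  obtain ⟨hdvr, hunif⟩ := InertiaField.isDiscreteValuationRing hq A hA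
  have := InertiaField.henselianLocalRing A
  have := InertiaField.isAlgClosed_residueField hq A hA
  let ι : field A →+* ℂ := Kummer.ιbar.comp (algebraMap (field A) ℚbar)
  obtain ⟨F, _, _, _, L, emb, hfixT, hnorm⟩ := exists_bridge (field A) ι hq hqM
  obtain ⟨D₀, hD₀, hkill⟩ := killsTorusClasses (ring A) hq hqM (NeZero.pos M') hunif
    (InertiaField.uniqueExt_ring hq A hA) L
  have : NeZero (q * auxLevel q M') :=
    ⟨mul_ne_zero hq.ne_zero (auxLevel_pos (NeZero.pos M')).ne'⟩
  have hfin := finiteDimensional_of_transcendental L (Δ_famOf_ne_zero q) emb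
    (MFGenus.transcendental_jElt (N := q * M' * q) ι)
  have hd : 0 < Module.finrank emb.fieldRange F := Module.finrank_pos
  refine ⟨D₀ * Module.finrank emb.fieldRange F, Nat.mul_pos hD₀ hd, fun k x hx hinv hpush => ?_⟩
  set n := lam ^ k with hn
  have hn0 : n ≠ 0 := pow_ne_zero k hlam.ne_zero
  obtain ⟨D, f, hmk, hf, hdiv, hfix⟩ :=
    Invariant.exists_invariant_generator hn0 hx (A.inertiaSubgroupIn ℚ) hinv
  obtain ⟨f', rfl⟩ := exists_bc_eq (field A) _ (A.inertiaSubgroupIn ℚ) rfl hfix
  have hf' : f' ≠ 0 := fun h0 => hf (by rw [h0, map_zero])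
  have : Algebra.IsAlgebraic (field A) ℚbar := Kummer.isAlgebraic_qbar.tower_top _
  have hloc : IsNthPowerLocally (field A) n (emb f') := by
    refine Constants.isNthPowerLocally
      ((A.inertiaSubgroupIn ℚ).map (arithmeticGalois (modularFunctionFieldFull (q * M' * q))))
      (bc (field A) _) (Module.Basis.ofVectorSpace (field A) ℚbar)
      (fun c => bc_algebraMap (field A) _ c) ?_ ?_ (fun z => exists_combo (field A) _ z) emb hf'
      fun v => ⟨_, (hdiv v).symm⟩
    · rintro _ ⟨σ, hσ, rfl⟩ a
      exact smul_bc (field A) _ (fun c => apply_eq A hσ c) a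
    · intro c hc
      refine ⟨⟨c, (mem_field_iff A).2 fun σ hσ => ?_⟩, rfl⟩
      have := hc _ ⟨σ, hσ, rfl⟩
      rwa [baseAut_arithmeticGalois] at this
  have hprod : ∀ i : Fin 2, IsConstMulPow (field A) n
      (∏ᶠ σ ∈ (L.borel i : Set (F ≃ₐ[field A] F)), σ (emb f')) := fun i => by
    obtain ⟨e, -, he⟩ := hnorm i f'
    obtain ⟨a, h, hah⟩ := isConstMulPow_norm (field A) _ rfl i hn0 D hf' hdiv
      (hmk ▸ hpush i)
    refine ⟨algebraMap (field A) F a ^ e, emb (degenMap (field A) q M' i h) ^ e,
      (isAlgebraic_algebraMap a).pow e, ?_⟩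
    rw [he]
    refine (congrArg (fun z => emb (degenMap (field A) q M' i z) ^ e) hah).trans ?_
    simp only [map_mul, map_pow, AlgHom.commutes, mul_pow, ← pow_mul, mul_comm e]
  have hG := hkill n (Nat.pos_of_ne_zero hn0)
    (Nat.Coprime.pow_left k ((Nat.coprime_primes hlam hq).2 hne)) (emb f')
    ((map_ne_zero _).2 hf') (fun σ hσ => hfixT σ hσ f') hloc hprod
  rw [← map_pow] at hG
  obtain ⟨c, g, hc, he⟩ := exists_pow_finrank_eq emb hG
  rw [← pow_mul] at he
  obtain ⟨a, ha⟩ := exists_algebraMap_eq_bc (field A) _ hc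
  have he' := congrArg (bc (field A) (q * M' * q)) he
  rw [map_pow, map_mul, map_pow, ← ha] at he'
  set N := D₀ * Module.finrank emb.fieldRange F
  set g' := bc (field A) (q * M' * q) g
  have hne : algebraMap ℚbar (modularFunctionFieldBar (q * M' * q)) a * g' ^ n ≠ 0 :=
    he' ▸ pow_ne_zero _ hf
  have hg : g' ≠ 0 := fun h0 => hne (by rw [h0, zero_pow hn0, mul_zero])
  rw [← hmk, show N • Pic0.mk D = Pic0.mk (N • D) from rfl]
  refine (QuotientAddGroup.eq_zero_iff _).2 ?_
  rw [AddSubgroup.mem_addSubgroupOf]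
  refine ⟨g', hg, fun v => mul_left_cancel₀ (Int.natCast_ne_zero.2 hn0) ?_⟩
  have h1 := congrArg v.ord he'
  rw [FF.ord_pow, v.ord_mul (left_ne_zero_of_mul hne) (pow_ne_zero n hg), FF.ord_algebraMap,
    FF.ord_pow, zero_add, ← hdiv] at h1
  rw [AddSubgroup.coe_nsmul, Finsupp.smul_apply, nsmul_eq_mul, ← h1]
  ring

end Fermat.Agent.Carayol
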