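import Fermat.Agent.Carayol.Endgame.Main
import Fermat.Agent.Carayol.Descent.Main
import Fermat.Agent.S22
import Fermat.Prelude.Def_GaloisRep_LocalConditions

/-!
# Carayol's theorem at `q² ∥ M`

Carayol's theorem at a prime whose square divides the level exactly, from the reduction properties
of the torsion of `J₀`.

Main result: `exists_galoisRep_not_isUnipotentOnInertiaAt`.
-/

set_option autoImplicit false

noncomputable section

open Polynomial CuspForm IsLocalRing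

namespace Fermat.Agent.Carayol

/-- Splitting off a prime occurring with exponent two. -/
theorem exists_eq_mul_of_factorization_eq_two {M q : ℕ} (hq : q.Prime) (hM : M ≠ 0)
    (h : M.factorization q = 2) : ∃ M', M'.Coprime q ∧ 0 < M' ∧ M = q * M' * q := by
  refine ⟨M / q ^ 2, ?_, ?_, ?_⟩
  · have h1 := Nat.coprime_ordCompl hq hM
    rw [h] at h1
    exact h1.symm
  · have h1 := Nat.ordCompl_pos q hM
    rwa [h] at h1
  · have h1 := Nat.ordProj_mul_ordCompl_eq_self M q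
    rw [h] at h1
    conv_lhs => rw [← h1]
    ring

/-- **Carayol's theorem at `q² ∥ M`**: no representation attached to a newform of level `M` is
unipotent on inertia at `q`, given the reduction of the torsion of `J₀`. -/
theorem exists_galoisRep_not_isUnipotentOnInertiaAt
    {M : ℕ} [NeZero M] {g : CuspForm (CongruenceSubgroup.Gamma0 M) 2} (hg : g.IsNewform)
    (lam : ℕ) [Fact lam.Prime] (hred : ∀ (N : ℕ) [NeZero N], GalRep.TorsionReduction N lam)
    (S : Finset ℕ)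
    (O' : Type) [CommRing O'] [IsDomain O'] [IsDiscreteValuationRing O']
    [IsAdicComplete (maximalIdeal O') O'] [Finite (ResidueField O')]
    [CharZero O'] (hlamO' : (lam : O') ∈ maximalIdeal O')
    (chig : heckeAlgebra M 2 (↑S : Set ℕ) →+* ℂ)
    (hchig : ∀ (ℓ : ℕ) (hℓ : ℓ.Prime) (hℓM : ¬ ℓ ∣ M) (hℓS : ℓ ∉ (↑S : Set ℕ)),
      chig (heckeAlgebra.T hℓ hℓM hℓS) = ModularFormClass.qCoeff g ℓ)
    (iota : chig.range →+* O')
    (hlamS : lam ∈ S) (hMS : ∀ q : ℕ, q.Prime → q ∣ M → q ∈ S)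
    (hres : ∀ (O'' : Type) [CommRing O''] [IsDomain O''] [IsDiscreteValuationRing O'']
      [IsAdicComplete (maximalIdeal O'') O''] [Finite (ResidueField O'')] [CharZero O'']
      [Algebra O' O''] [Module.Finite O' O''] [IsLocalHom (algebraMap O' O'')],
      Function.Injective (algebraMap O' O'') → ∀ (ρ : GaloisRepAdic O''),
      (∀ (ℓ : ℕ) (hℓ : ℓ.Prime) (_ : ℓ ≠ lam) (hℓM : ¬ ℓ ∣ M) (hℓS : ℓ ∉ (↑S : Set ℕ)),
        ∀ A : ValuationSubring (AlgebraicClosure ℚ), A.LiesOverPrime ℓ →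
          ∀ σ : AlgebraicClosure ℚ ≃ₐ[ℚ] AlgebraicClosure ℚ, A.IsFrobeniusAt σ ℓ →
            LinearMap.charpoly (ρ.ρ σ) =
              X ^ 2 - C (algebraMap O' O'' ((iota.comp chig.rangeRestrict)
                (heckeAlgebra.T hℓ hℓM hℓS))) * X + C ((ℓ : O'')))
      → ρ.residual.IsAbsolutelyIrreducible ∧ ρ.residual.IsOdd) :
    ∃ (O'' : Type) (_ : CommRing O'') (_ : IsDomain O'') (_ : IsDiscreteValuationRing O'')
      (_ : IsAdicComplete (maximalIdeal O'') O'') (_ : Finite (ResidueField O''))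
      (_ : CharZero O'') (_ : Algebra O' O'') (_ : Module.Finite O' O'')
      (_ : IsLocalHom (algebraMap O' O'')),
      Function.Injective (algebraMap O' O'') ∧
      ∃ ρ : GaloisRepAdic O'',
        (∀ (ℓ : ℕ) (hℓ : ℓ.Prime) (hℓM : ¬ ℓ ∣ M) (hℓS : ℓ ∉ (↑S : Set ℕ)),
          ∀ A : ValuationSubring (AlgebraicClosure ℚ), A.LiesOverPrime ℓ →
            ∀ σ : AlgebraicClosure ℚ ≃ₐ[ℚ] AlgebraicClosure ℚ, A.IsFrobeniusAt σ ℓ →
              LinearMap.charpoly (ρ.ρ σ) =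
                X ^ 2 - C (algebraMap O' O'' ((iota.comp chig.rangeRestrict)
                  (heckeAlgebra.T hℓ hℓM hℓS))) * X + C ((ℓ : O''))) ∧
        (∀ q : ℕ, q.Prime → q ≠ lam → M.factorization q = 2 →
          ¬ ρ.IsUnipotentOnInertiaAt q) := by
  have := Fermat.Agent.S22.result M 2 ∅
  obtain ⟨O, i1, i2, i3, i4, i5, i6, i7, i8, i9, hinj, hpO, κO, hκO⟩ :=
    GalRep.exists_point_extension S O' hlamO' (iota.comp chig.rangeRestrict)
  have : NeZero lam := ⟨(Fact.out : lam.Prime).ne_zero⟩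
  obtain ⟨ρ, hρ, -⟩ := GalRep.exists_rep_of_eigensystem (GalRep.jZeroDatum M lam (hred M)) S
    hlamS hMS O hpO κO
  have hcp : ∀ (ℓ : ℕ) (hℓ : ℓ.Prime) (hℓM : ¬ ℓ ∣ M) (hℓS : ℓ ∉ (↑S : Set ℕ)),
      ∀ A : ValuationSubring (AlgebraicClosure ℚ), A.LiesOverPrime ℓ →
        ∀ σ : AlgebraicClosure ℚ ≃ₐ[ℚ] AlgebraicClosure ℚ, A.IsFrobeniusAt σ ℓ →
          LinearMap.charpoly (ρ.ρ σ) =
            X ^ 2 - C (algebraMap O' O ((iota.comp chig.rangeRestrict)
              (heckeAlgebra.T hℓ hℓM hℓS))) * X + C ((ℓ : O)) :=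
    fun ℓ hℓ hℓM hℓS A hA σ hσ => by
      rw [hρ ℓ hℓ (by simpa using hℓS) A hA σ hσ, hκO ℓ hℓ hℓM hℓS]
  have hirr := (hres O hinj ρ fun ℓ hℓ _ hℓM hℓS => hcp ℓ hℓ hℓM hℓS).1
  refine ⟨O, i1, i2, i3, i4, i5, i6, i7, i8, i9, hinj, ρ, hcp, fun q hq hne hfac huni => ?_⟩
  obtain ⟨M', hcop, hM', rfl⟩ := exists_eq_mul_of_factorization_eq_two hq (NeZero.ne M) hfac
  have : NeZero q := ⟨hq.ne_zero⟩
  have : NeZero M' := ⟨hM'.ne'⟩
  obtain ⟨A, hA⟩ := Gal.exists_liesOverPrime (L := AlgebraicClosure ℚ) hq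
  exact Endgame.not_charpoly_eq_of_killsInvariantClasses hg hq S hlamS hMS chig hchig
    (hred _) (hred _) O hpO ((algebraMap O' O).comp iota) κO hκO ρ hirr hρ A
    (killsInvariantClasses hq hcop Fact.out hne.symm hA) (huni A hA)

end Fermat.Agent.Carayol
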